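import Fermat.Agent.BDR.Plus
import Fermat.Agent.FontaineWintenberger.Action

/-!
# The Galois action on the period rings

The group of `ℚ_p` acts on `O`, on its perfection, on the Witt vectors, on `B_dR⁺` and on `B_dR`,
and `θ` commutes with it.
-/

set_option autoImplicit false
set_option linter.unusedSectionVars false

noncomputable section

open Ideal FA.TateSen FA.FontaineWintenberger

namespace FA.BDR

variable {p : ℕ} [hp : Fact p.Prime]

local notation "C" => ℂ_[p]
local notation "G" => PadicAlgCl p ≃ₐ[ℚ_[p]] PadicAlgCl p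

/-- The action on the ring of integers. -/
def galO (σ : G) : OC p →+* OC p where
  toFun x := mkOC (gal σ (x : C)) ((norm_galC σ _).trans_le (norm_OC_le x))
  map_one' := Subtype.ext (map_one (gal σ))
  map_mul' x y := Subtype.ext (map_mul (gal σ) (x : C) y)
  map_zero' := Subtype.ext (map_zero (gal σ))
  map_add' x y := Subtype.ext (map_add (gal σ) (x : C) y)

theorem coe_galO (σ : G) (x : OC p) : (galO σ x : C) = gal σ (x : C) := rfl

/-- The action on an element of the perfection. -/
def oflatGalFun (σ : G) (x : OFlat p) : OFlat p :=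
  ofFlat (flatGal σ (toFlat x)) ((norm_flatGal σ _).trans_le (norm_toFlat_le x))

theorem toFlat_oflatGalFun (σ : G) (x : OFlat p) :
    toFlat (oflatGalFun σ x) = flatGal σ (toFlat x) := toFlat_ofFlat _ _

/-- The action on the perfection. -/
def oflatGal (σ : G) : OFlat p →+* OFlat p where
  toFun := oflatGalFun σ
  map_one' := toFlat_injective (by rw [toFlat_oflatGalFun, map_one, map_one])
  map_mul' x y := toFlat_injective (by
    rw [toFlat_oflatGalFun, map_mul, map_mul, map_mul, toFlat_oflatGalFun, toFlat_oflatGalFun])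
  map_zero' := toFlat_injective (by rw [toFlat_oflatGalFun, map_zero, map_zero])
  map_add' x y := toFlat_injective (by
    rw [toFlat_oflatGalFun, map_add, map_add, map_add, toFlat_oflatGalFun, toFlat_oflatGalFun])

theorem toFlat_oflatGal (σ : G) (x : OFlat p) :
    toFlat (oflatGal σ x) = flatGal σ (toFlat x) := toFlat_oflatGalFun σ x

theorem untilt_oflatGal (σ : G) (x : OFlat p) :
    PreTilt.untilt (oflatGal σ x) = galO σ (PreTilt.untilt x) := by
  refine Subtype.ext ?_
  rw [untilt_eq_seq, toFlat_oflatGal, flatGal_seq, coe_galO, untilt_eq_seq]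

theorem oflatGal_one (x : OFlat p) : oflatGal (1 : G) x = x :=
  toFlat_injective (by rw [toFlat_oflatGal, flatGal_one])

theorem oflatGal_mul (σ τ : G) (x : OFlat p) :
    oflatGal (σ * τ) x = oflatGal σ (oflatGal τ x) :=
  toFlat_injective (by rw [toFlat_oflatGal, flatGal_mul, toFlat_oflatGal, toFlat_oflatGal])

/-- The action on `A_inf`. -/
def ainfGal (σ : G) : AInf p →+* AInf p := WittVector.map (oflatGal σ)

theorem ainfGal_one (x : AInf p) : ainfGal (1 : G) x = x :=
  WittVector.ext fun n => by rw [ainfGal, WittVector.map_coeff, oflatGal_one]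

theorem ainfGal_mul (σ τ : G) (x : AInf p) : ainfGal (σ * τ) x = ainfGal σ (ainfGal τ x) :=
  WittVector.ext fun n => by
    simp only [ainfGal, WittVector.map_coeff, oflatGal_mul]

/-- **`θ` commutes with the Galois action.** -/
theorem theta_ainfGal (σ : G) (x : AInf p) : theta p (ainfGal σ x) = galO σ (theta p x) := by
  rw [IsHausdorff.eq_iff_smodEq (I := span {(p : OC p)})]
  intro n
  have hmk : (Ideal.Quotient.mk (span {(p : OC p)} ^ n)).comp ((theta p).comp (ainfGal σ)) =
      (Ideal.Quotient.mk (span {(p : OC p)} ^ n)).comp ((galO σ).comp (theta p)) := by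
    refine WittVector.eq_of_apply_teichmuller_eq _ _ ⟨n, ?_⟩ fun y => ?_
    · rw [← map_natCast (Ideal.Quotient.mk (span {(p : OC p)} ^ n)), ← map_pow,
        Ideal.Quotient.eq_zero_iff_mem]
      exact Ideal.pow_mem_pow (mem_span_singleton_self _) n
    · simp only [RingHom.comp_apply, ainfGal, WittVector.map_teichmuller, theta_teichmuller,
        untilt_oflatGal]
  have h := RingHom.congr_fun hmk x
  rw [RingHom.comp_apply, RingHom.comp_apply, RingHom.comp_apply, RingHom.comp_apply,
    Ideal.Quotient.eq] at h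
  rw [SModEq.sub_mem, smul_eq_mul, Ideal.mul_top]
  exact h

/-- The action on `A_inf[1/p]`. -/
def ainfPGal (σ : G) : AInfP p →+* AInfP p :=
  Localization.awayLift ((algebraMap (AInf p) (AInfP p)).comp (ainfGal σ)) (p : AInf p) (by
    rw [RingHom.comp_apply, map_natCast]
    exact IsLocalization.Away.algebraMap_isUnit (p : AInf p))

theorem ainfPGal_algebraMap (σ : G) (x : AInf p) :
    ainfPGal σ (algebraMap _ _ x) = algebraMap _ _ (ainfGal σ x) :=
  IsLocalization.lift_eq _ x

theorem ainfPGal_one (x : AInfP p) : ainfPGal (1 : G) x = x := by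
  have h : ainfPGal (1 : G) = RingHom.id (AInfP p) :=
    IsLocalization.ringHom_ext (Submonoid.powers (p : AInf p)) (RingHom.ext fun a => by
      rw [RingHom.comp_apply, ainfPGal_algebraMap, ainfGal_one, RingHom.comp_apply,
        RingHom.id_apply])
  exact RingHom.congr_fun h x

theorem ainfPGal_mul (σ τ : G) (x : AInfP p) :
    ainfPGal (σ * τ) x = ainfPGal σ (ainfPGal τ x) := by
  have h : ainfPGal (σ * τ) = (ainfPGal σ).comp (ainfPGal τ) :=
    IsLocalization.ringHom_ext (Submonoid.powers (p : AInf p)) (RingHom.ext fun a => by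
      simp only [RingHom.comp_apply, ainfPGal_algebraMap, ainfGal_mul])
  exact RingHom.congr_fun h x

theorem thetaC_ainfPGal (σ : G) (x : AInfP p) : thetaC p (ainfPGal σ x) = gal σ (thetaC p x) := by
  have h : (thetaC p).comp (ainfPGal σ) = (gal σ).comp (thetaC p) :=
    IsLocalization.ringHom_ext (Submonoid.powers (p : AInf p)) (RingHom.ext fun a => by
      simp only [RingHom.comp_apply, ainfPGal_algebraMap, thetaC_algebraMap, theta_ainfGal,
        coe_galO])
  exact RingHom.congr_fun h x

theorem bdrIdeal_le_comap (σ : G) : bdrIdeal p ≤ (bdrIdeal p).comap (ainfPGal σ) := by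
  intro x hx
  rw [Ideal.mem_comap, bdrIdeal_eq_ker, RingHom.mem_ker, thetaC_ainfPGal]
  rw [bdrIdeal_eq_ker, RingHom.mem_ker] at hx
  rw [hx, map_zero]

/-- **The action on `B_dR⁺`.** -/
def bplusGal (σ : G) : BPlus p →+* BPlus p :=
  mapCompletion (bdrIdeal p) (ainfPGal σ) (bdrIdeal_le_comap σ)

theorem bplusGal_toBPlus (σ : G) (x : AInfP p) :
    bplusGal σ (toBPlus p x) = toBPlus p (ainfPGal σ x) :=
  mapCompletion_toCompl _ _ _ x

theorem thetaPlus_bplusGal (σ : G) (x : BPlus p) :
    thetaPlus p (bplusGal σ x) = gal σ (thetaPlus p x) :=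
  residueMap_mapCompletion _ _ _ _ _ _ (thetaC_ainfPGal σ) x

theorem bplusGal_one (x : BPlus p) : bplusGal (1 : G) x = x :=
  mapCompletion_id _ _ _ ainfPGal_one x

theorem bplusGal_mul (σ τ : G) (x : BPlus p) :
    bplusGal (σ * τ) x = bplusGal σ (bplusGal τ x) :=
  mapCompletion_comp _ _ _ _ _ _ _ (ainfPGal_mul σ τ) x

theorem bplusGal_injective (σ : G) : Function.Injective (bplusGal σ : BPlus p → BPlus p) :=
  Function.LeftInverse.injective (g := bplusGal σ⁻¹) fun x => by
    rw [← bplusGal_mul, inv_mul_cancel, bplusGal_one]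

instance bplusAction : MulSemiringAction G (BPlus p) where
  smul σ x := bplusGal σ x
  one_smul := bplusGal_one
  mul_smul := bplusGal_mul
  smul_zero σ := map_zero (bplusGal σ)
  smul_add σ := map_add (bplusGal σ)
  smul_one σ := map_one (bplusGal σ)
  smul_mul σ := map_mul (bplusGal σ)

/-- **The action on `B_dR`.** -/
def bfieldGal (σ : G) : BField p →+* BField p :=
  IsLocalization.map (BField p) (bplusGal σ) (M := nonZeroDivisors (BPlus p))
    (T := nonZeroDivisors (BPlus p)) fun x hx => mem_nonZeroDivisors_iff_ne_zero.2 fun h =>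
      mem_nonZeroDivisors_iff_ne_zero.1 hx (bplusGal_injective σ (h.trans (map_zero _).symm))

theorem bfieldGal_algebraMap (σ : G) (x : BPlus p) :
    bfieldGal σ (algebraMap _ _ x) = algebraMap _ _ (bplusGal σ x) :=
  IsLocalization.map_eq _ x

instance bfieldAction : MulSemiringAction G (BField p) where
  smul σ x := bfieldGal σ x
  one_smul x := by
    have h : bfieldGal (1 : G) = RingHom.id (BField p) :=
      IsLocalization.ringHom_ext (nonZeroDivisors (BPlus p)) (RingHom.ext fun a => by
        simp only [RingHom.comp_apply, RingHom.id_apply, bfieldGal_algebraMap, bplusGal_one])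
    exact RingHom.congr_fun h x
  mul_smul σ τ x := by
    have h : bfieldGal (σ * τ) = (bfieldGal σ).comp (bfieldGal τ) :=
      IsLocalization.ringHom_ext (nonZeroDivisors (BPlus p)) (RingHom.ext fun a => by
        simp only [RingHom.comp_apply, bfieldGal_algebraMap, bplusGal_mul])
    exact RingHom.congr_fun h x
  smul_zero σ := map_zero (bfieldGal σ)
  smul_add σ := map_add (bfieldGal σ)
  smul_one σ := map_one (bfieldGal σ)
  smul_mul σ := map_mul (bfieldGal σ)

theorem smul_bplus_def (σ : G) (x : BPlus p) : σ • x = bplusGal σ x := rfl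

theorem smul_algebraMap_bfield (σ : G) (x : BPlus p) :
    σ • algebraMap (BPlus p) (BField p) x = algebraMap _ _ (σ • x) := bfieldGal_algebraMap σ x

end FA.BDR
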