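import Mathlib.RingTheory.AdicCompletion.Algebra
import Mathlib.RingTheory.DiscreteValuationRing.Basic
import Mathlib.RingTheory.Ideal.Quotient.Operations

/-!
# The completion of a domain at a principal maximal ideal

It is a complete discrete valuation ring, with the generator of the ideal as a uniformiser.
-/

set_option autoImplicit false
set_option linter.unusedSectionVars false

noncomputable section

open Ideal

namespace FA.BDR

variable {A : Type*} [CommRing A] (J : Ideal A) (a : A)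

/-- A completion element as a coherent sequence. -/
theorem exists_seq_completion (hJ : J = span {a}) (x : AdicCompletion J A) :
    ∃ f : ℕ → A, (∀ m n, m ≤ n → a ^ m ∣ f m - f n) ∧
      ∀ n, AdicCompletion.evalₐ J n x = Ideal.Quotient.mk (J ^ n) (f n) := by
  obtain ⟨f, rfl⟩ := AdicCompletion.mk_surjective J A x
  refine ⟨f.val, fun m n hmn => ?_, fun n => AdicCompletion.evalₐ_mk J n f⟩
  have h := f.property hmn
  subst hJ
  rwa [SModEq.sub_mem, smul_eq_mul, Ideal.mul_top, span_singleton_pow, mem_span_singleton] at h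

theorem exists_completion_of_seq (hJ : J = span {a}) (f : ℕ → A)
    (hf : ∀ m n, m ≤ n → a ^ m ∣ f m - f n) :
    ∃ x : AdicCompletion J A,
      ∀ n, AdicCompletion.evalₐ J n x = Ideal.Quotient.mk (J ^ n) (f n) :=
  ⟨AdicCompletion.mk J A ⟨f, fun {m n} hmn => by
    rw [SModEq.sub_mem, smul_eq_mul, Ideal.mul_top, hJ, span_singleton_pow, mem_span_singleton]
    exact hf m n hmn⟩, fun n => AdicCompletion.evalₐ_mk J n _⟩

theorem mk_pow_eq_iff (hJ : J = span {a}) {n : ℕ} {b c : A} :
    Ideal.Quotient.mk (J ^ n) b = Ideal.Quotient.mk (J ^ n) c ↔ a ^ n ∣ b - c := by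
  rw [Ideal.Quotient.eq, hJ, span_singleton_pow, mem_span_singleton]

theorem mk_pow_eq_zero_iff (hJ : J = span {a}) {n : ℕ} {b : A} :
    Ideal.Quotient.mk (J ^ n) b = 0 ↔ a ^ n ∣ b := by
  rw [Ideal.Quotient.eq_zero_iff_mem, hJ, span_singleton_pow, mem_span_singleton]

/-- The map from the ring. -/
abbrev toCompl : A →+* AdicCompletion J A := algebraMap A (AdicCompletion J A)

theorem evalₐ_toCompl (n : ℕ) (b : A) :
    AdicCompletion.evalₐ J n (toCompl J b) = Ideal.Quotient.mk (J ^ n) b := by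
  rw [AlgHom.commutes]
  rfl

/-- Completion elements agreeing at every level are equal. -/
theorem eq_zero_of_dvd_completion (hJ : J = span {a}) {x : AdicCompletion J A}
    (h : ∀ n, toCompl J a ^ n ∣ x) : x = 0 := by
  refine AdicCompletion.ext_evalₐ fun n => ?_
  obtain ⟨c, rfl⟩ := h n
  rw [map_mul, map_pow, evalₐ_toCompl, map_zero, ← map_pow]
  rw [(mk_pow_eq_zero_iff J a hJ).2 dvd_rfl, zero_mul]

variable [IsDomain A]

theorem toCompl_mul_cancel (hJ : J = span {a}) (ha : a ≠ 0) {x : AdicCompletion J A}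
    (h : toCompl J a * x = 0) : x = 0 := by
  obtain ⟨f, hf, hx⟩ := exists_seq_completion J a hJ x
  refine AdicCompletion.ext_evalₐ fun n => ?_
  have h1 := congrArg (AdicCompletion.evalₐ J (n + 1)) h
  rw [map_mul, map_zero, evalₐ_toCompl, hx, ← map_mul, mk_pow_eq_zero_iff J a hJ, pow_succ',
    mul_dvd_mul_iff_left ha] at h1
  rw [map_zero, hx, mk_pow_eq_zero_iff J a hJ]
  exact (dvd_iff_dvd_of_dvd_sub (hf n (n + 1) n.le_succ)).2 h1

theorem toCompl_dvd_of_eval_one (hJ : J = span {a}) (ha : a ≠ 0) {x : AdicCompletion J A}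
    (h : AdicCompletion.evalₐ J 1 x = 0) : toCompl J a ∣ x := by
  obtain ⟨f, hf, hx⟩ := exists_seq_completion J a hJ x
  rw [hx, mk_pow_eq_zero_iff J a hJ, pow_one] at h
  have hdiv : ∀ n, a ∣ f (n + 1) := fun n =>
    (dvd_iff_dvd_of_dvd_sub (by simpa using hf 1 (n + 1) (by omega))).1 h
  choose b hb using hdiv
  obtain ⟨c, hc⟩ := exists_completion_of_seq J a hJ b fun m n hmn => by
    have h1 := hf (m + 1) (n + 1) (by omega)
    rwa [hb, hb, ← mul_sub, pow_succ', mul_dvd_mul_iff_left ha] at h1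
  refine ⟨c, AdicCompletion.ext_evalₐ fun n => ?_⟩
  rw [map_mul, evalₐ_toCompl, hc, hx, ← map_mul, ← hb, mk_pow_eq_iff J a hJ]
  exact hf n (n + 1) n.le_succ

theorem isUnit_of_eval_one (hJ : J = span {a}) (hmax : J.IsMaximal) {x : AdicCompletion J A}
    (h : AdicCompletion.evalₐ J 1 x ≠ 0) : IsUnit x := by
  obtain ⟨f, hf, hx⟩ := exists_seq_completion J a hJ x
  rw [hx, Ne, mk_pow_eq_zero_iff J a hJ, pow_one] at h
  have hinv : ∀ n, ∃ g, a ^ n ∣ f n * g - 1 := by
    intro n
    rcases Nat.eq_zero_or_pos n with rfl | hn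
    · exact ⟨1, by simp⟩
    have hnd : f n ∉ J := by
      rw [hJ, mem_span_singleton]
      exact fun hd => h ((dvd_iff_dvd_of_dvd_sub (by simpa using hf 1 n hn)).2 hd)
    obtain ⟨r, i, hi, hr⟩ := hmax.exists_inv hnd
    rw [hJ, mem_span_singleton] at hi
    obtain ⟨d, rfl⟩ := hi
    have hcop : IsCoprime a (f n) := ⟨d, r, by linear_combination hr⟩
    obtain ⟨u, v, huv⟩ := hcop.pow_left (m := n)
    exact ⟨v, -u, by linear_combination huv⟩
  choose g hg using hinv
  obtain ⟨y, hy⟩ := exists_completion_of_seq J a hJ g fun m n hmn => by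
    have e : g m - g n = g m * -(f n * g n - 1) + g n * (f m * g m - 1) -
        g m * g n * (f m - f n) := by ring
    rw [e]
    exact dvd_sub (dvd_add (dvd_mul_of_dvd_right (dvd_neg.2 ((pow_dvd_pow a hmn).trans (hg n))) _)
      (dvd_mul_of_dvd_right (hg m) _)) (dvd_mul_of_dvd_right (hf m n hmn) _)
  refine isUnit_iff_exists_inv.2 ⟨y, AdicCompletion.ext_evalₐ fun n => ?_⟩
  rw [map_mul, map_one, hx, hy, ← map_mul, ← map_one (Ideal.Quotient.mk (J ^ n)),
    mk_pow_eq_iff J a hJ]
  exact hg n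

theorem eval_one_toCompl_self (hJ : J = span {a}) :
    AdicCompletion.evalₐ J 1 (toCompl J a) = 0 := by
  rw [evalₐ_toCompl, mk_pow_eq_zero_iff J a hJ, pow_one]

theorem not_isUnit_toCompl (hJ : J = span {a}) (hmax : J.IsMaximal) :
    ¬ IsUnit (toCompl J a) := fun h => by
  have h1 := h.map (AdicCompletion.evalₐ J 1)
  rw [eval_one_toCompl_self J a hJ] at h1
  have hnt : Nontrivial (A ⧸ J ^ 1) :=
    Ideal.Quotient.nontrivial_iff.2 (by rw [pow_one]; exact hmax.ne_top)
  exact not_isUnit_zero h1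

/-- **The decomposition.** -/
theorem exists_eq_unit_mul_pow_completion (hJ : J = span {a}) (ha : a ≠ 0) (hmax : J.IsMaximal)
    {x : AdicCompletion J A} (hx : x ≠ 0) :
    ∃ (k : ℕ) (u : (AdicCompletion J A)ˣ), x = (u : AdicCompletion J A) * toCompl J a ^ k := by
  classical
  have hex : ∃ n, ¬ toCompl J a ^ n ∣ x := by
    by_contra hcon
    push Not at hcon
    exact hx (eq_zero_of_dvd_completion J a hJ hcon)
  have h0 : Nat.find hex ≠ 0 := fun h0 => by
    have := Nat.find_spec hex
    simp [h0] at this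
  obtain ⟨k, hk⟩ := Nat.exists_eq_succ_of_ne_zero h0
  have hdvd : toCompl J a ^ k ∣ x := not_not.1 (Nat.find_min hex (hk ▸ k.lt_succ_self))
  obtain ⟨y, rfl⟩ := hdvd
  have hy : IsUnit y := isUnit_of_eval_one J a hJ hmax fun h => by
    refine Nat.find_spec hex ?_
    rw [hk, pow_succ]
    exact mul_dvd_mul_left _ (toCompl_dvd_of_eval_one J a hJ ha h)
  exact ⟨k, hy.unit, by rw [IsUnit.unit_spec, mul_comm]⟩

theorem isDomain_completion (hJ : J = span {a}) (ha : a ≠ 0) (hmax : J.IsMaximal) :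
    IsDomain (AdicCompletion J A) := by
  have hcancel : ∀ (k : ℕ) {z : AdicCompletion J A}, toCompl J a ^ k * z = 0 → z = 0 := by
    intro k
    induction k with
    | zero => intro z hz; simpa using hz
    | succ k ih =>
      intro z hz
      rw [pow_succ, mul_assoc] at hz
      exact toCompl_mul_cancel J a hJ ha (ih hz)
  have : Nontrivial (AdicCompletion J A) :=
    nontrivial_of_ne (toCompl J a) 1 fun h => not_isUnit_toCompl J a hJ hmax (h ▸ isUnit_one)
  have : NoZeroDivisors (AdicCompletion J A) := ⟨fun {x y} hxy => by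
    by_contra hcon
    push Not at hcon
    obtain ⟨k, u, rfl⟩ := exists_eq_unit_mul_pow_completion J a hJ ha hmax hcon.1
    rw [mul_assoc, Units.mul_right_eq_zero] at hxy
    exact hcon.2 (hcancel k hxy)⟩
  exact NoZeroDivisors.to_isDomain _

theorem irreducible_toCompl (hJ : J = span {a}) (ha : a ≠ 0) (hmax : J.IsMaximal) :
    Irreducible (toCompl J a) := by
  have := isDomain_completion J a hJ ha hmax
  refine ⟨not_isUnit_toCompl J a hJ hmax, fun x y hxy => ?_⟩
  by_contra hcon
  push Not at hcon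
  have hd : ∀ z, ¬ IsUnit z → toCompl J a ∣ z := fun z hz =>
    toCompl_dvd_of_eval_one J a hJ ha (by_contra fun h => hz (isUnit_of_eval_one J a hJ hmax h))
  obtain ⟨x', rfl⟩ := hd x hcon.1
  obtain ⟨y', rfl⟩ := hd y hcon.2
  have hne : toCompl J a ≠ 0 := fun h0 =>
    one_ne_zero (toCompl_mul_cancel J a hJ ha (x := 1) (by rw [h0, zero_mul]))
  have h1 : toCompl J a * (x' * y') = 1 := by
    refine mul_left_cancel₀ hne ?_
    linear_combination -hxy
  exact not_isUnit_toCompl J a hJ hmax (IsUnit.of_mul_eq_one _ h1)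

/-- **The completion is a discrete valuation ring.** -/
theorem isDVR_completion (hJ : J = span {a}) (ha : a ≠ 0) (hmax : J.IsMaximal)
    [IsDomain (AdicCompletion J A)] : IsDiscreteValuationRing (AdicCompletion J A) :=
  IsDiscreteValuationRing.ofHasUnitMulPowIrreducibleFactorization
    ⟨toCompl J a, irreducible_toCompl J a hJ ha hmax, fun hx => by
      obtain ⟨k, u, rfl⟩ := exists_eq_unit_mul_pow_completion J a hJ ha hmax hx
      exact ⟨k, u, mul_comm _ _⟩⟩

theorem toCompl_pow_dvd_iff (hJ : J = span {a}) (ha : a ≠ 0) {x : AdicCompletion J A} {n : ℕ} :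
    toCompl J a ^ n ∣ x ↔ AdicCompletion.evalₐ J n x = 0 := by
  refine ⟨?_, ?_⟩
  · rintro ⟨c, rfl⟩
    rw [map_mul, map_pow, evalₐ_toCompl, ← map_pow, (mk_pow_eq_zero_iff J a hJ).2 dvd_rfl,
      zero_mul]
  · induction n generalizing x with
    | zero => intro _; simp
    | succ n ih =>
      intro h
      obtain ⟨f, hf, hx⟩ := exists_seq_completion J a hJ x
      have h' := h
      rw [hx, mk_pow_eq_zero_iff J a hJ] at h'
      obtain ⟨c, rfl⟩ := ih (x := x) (by
        rw [hx, mk_pow_eq_zero_iff J a hJ]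
        exact (dvd_iff_dvd_of_dvd_sub (hf n (n + 1) n.le_succ)).2
          ((pow_dvd_pow a n.le_succ).trans h'))
      obtain ⟨g, hg, hc⟩ := exists_seq_completion J a hJ c
      rw [map_mul, map_pow, evalₐ_toCompl, hc, ← map_pow, ← map_mul, mk_pow_eq_zero_iff J a hJ,
        pow_succ, mul_dvd_mul_iff_left (pow_ne_zero n ha)] at h
      rw [pow_succ]
      refine mul_dvd_mul_left _ (toCompl_dvd_of_eval_one J a hJ ha ?_)
      rw [hc, mk_pow_eq_zero_iff J a hJ, pow_one]
      refine (dvd_iff_dvd_of_dvd_sub ?_).2 h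
      simpa using hg 1 (n + 1) (by omega)

/-- **The completion is complete.** -/
theorem exists_limit_completion (hJ : J = span {a}) (x : ℕ → AdicCompletion J A)
    (hx : ∀ m n, m ≤ n → toCompl J a ^ m ∣ x m - x n) :
    ∃ y, ∀ n, AdicCompletion.evalₐ J n y = AdicCompletion.evalₐ J n (x n) := by
  choose f hf hxf using fun n => exists_seq_completion J a hJ (x n)
  obtain ⟨y, hy⟩ := exists_completion_of_seq J a hJ (fun n => f n n) fun m n hmn => by
    obtain ⟨c, hc⟩ := hx m n hmn
    have h1 := congrArg (AdicCompletion.evalₐ J m) hc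
    rw [map_sub, map_mul, map_pow, evalₐ_toCompl, ← map_pow,
      (mk_pow_eq_zero_iff J a hJ).2 dvd_rfl, zero_mul, hxf, hxf, ← map_sub,
      mk_pow_eq_zero_iff J a hJ] at h1
    rw [show f m m - f n n = (f m m - f n m) + (f n m - f n n) by ring]
    exact dvd_add h1 (hf n m n hmn)
  exact ⟨y, fun n => by rw [hy, hxf]⟩

/-- The residue map of a homomorphism killing the ideal. -/
def residueMap {k : Type*} [CommRing k] (f : A →+* k) (hf : J ≤ RingHom.ker f) :
    AdicCompletion J A →+* k :=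
  (Ideal.Quotient.lift (J ^ 1) f fun b hb => hf (by rwa [pow_one] at hb)).comp
    (AdicCompletion.evalₐ J 1).toRingHom

theorem residueMap_toCompl {k : Type*} [CommRing k] (f : A →+* k) (hf : J ≤ RingHom.ker f)
    (b : A) : residueMap J f hf (toCompl J b) = f b := by
  rw [residueMap, RingHom.comp_apply, AlgHom.toRingHom_eq_coe, AlgHom.coe_toRingHom,
    evalₐ_toCompl, Ideal.Quotient.lift_mk]

/-- An endomorphism preserving the ideal at one level. -/
def levelMap (σ : A →+* A) (hσ : J ≤ J.comap σ) (n : ℕ) : AdicCompletion J A →+* A ⧸ J ^ n :=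
  (Ideal.quotientMap (J ^ n) σ ((Ideal.pow_right_mono hσ n).trans (J.le_comap_pow σ n))).comp
    (AdicCompletion.evalₐ J n).toRingHom

theorem levelMap_compat (σ : A →+* A) (hσ : J ≤ J.comap σ) {m n : ℕ} (hmn : m ≤ n) :
    (Ideal.Quotient.factorPow J hmn).comp (levelMap J σ hσ n) = levelMap J σ hσ m := by
  refine RingHom.ext fun x => ?_
  obtain ⟨f, rfl⟩ := AdicCompletion.mk_surjective J A x
  simp only [levelMap, RingHom.comp_apply, AlgHom.toRingHom_eq_coe, AlgHom.coe_toRingHom,
    AdicCompletion.evalₐ_mk, Ideal.quotientMap_mk, Ideal.Quotient.factor_mk]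
  rw [Ideal.Quotient.eq, ← map_sub]
  refine (Ideal.pow_right_mono hσ m).trans (J.le_comap_pow σ m) ?_
  have h := f.property hmn
  rw [SModEq.sub_mem, smul_eq_mul, Ideal.mul_top] at h
  rw [← neg_sub]
  exact (J ^ m).neg_mem h

/-- An endomorphism preserving the ideal acts on the completion. -/
def mapCompletion (σ : A →+* A) (hσ : J ≤ J.comap σ) :
    AdicCompletion J A →+* AdicCompletion J A :=
  AdicCompletion.liftRingHom J (levelMap J σ hσ) fun {_ _} hmn => levelMap_compat J σ hσ hmn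

theorem evalₐ_mapCompletion (σ : A →+* A) (hσ : J ≤ J.comap σ) (n : ℕ) (x : AdicCompletion J A) :
    AdicCompletion.evalₐ J n (mapCompletion J σ hσ x) =
      Ideal.quotientMap (J ^ n) σ ((Ideal.pow_right_mono hσ n).trans (J.le_comap_pow σ n))
        (AdicCompletion.evalₐ J n x) :=
  AdicCompletion.evalₐ_liftRingHom J (levelMap J σ hσ)
    (fun {_ _} hmn => levelMap_compat J σ hσ hmn) n x

theorem mapCompletion_toCompl (σ : A →+* A) (hσ : J ≤ J.comap σ) (b : A) :
    mapCompletion J σ hσ (toCompl J b) = toCompl J (σ b) :=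
  AdicCompletion.ext_evalₐ fun n => by
    rw [evalₐ_mapCompletion, evalₐ_toCompl, evalₐ_toCompl, Ideal.quotientMap_mk]

theorem mapCompletion_id (σ : A →+* A) (hσ : J ≤ J.comap σ) (h : ∀ b, σ b = b)
    (x : AdicCompletion J A) : mapCompletion J σ hσ x = x :=
  AdicCompletion.ext_evalₐ fun n => by
    obtain ⟨b, hb⟩ := Ideal.Quotient.mk_surjective (AdicCompletion.evalₐ J n x)
    rw [evalₐ_mapCompletion, ← hb, Ideal.quotientMap_mk, h]

theorem mapCompletion_comp (σ τ ρ : A →+* A) (hσ : J ≤ J.comap σ) (hτ : J ≤ J.comap τ)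
    (hρ : J ≤ J.comap ρ) (h : ∀ b, ρ b = σ (τ b)) (x : AdicCompletion J A) :
    mapCompletion J ρ hρ x = mapCompletion J σ hσ (mapCompletion J τ hτ x) :=
  AdicCompletion.ext_evalₐ fun n => by
    obtain ⟨b, hb⟩ := Ideal.Quotient.mk_surjective (AdicCompletion.evalₐ J n x)
    rw [evalₐ_mapCompletion, evalₐ_mapCompletion, evalₐ_mapCompletion, ← hb,
      Ideal.quotientMap_mk, Ideal.quotientMap_mk, Ideal.quotientMap_mk, h]

theorem residueMap_mapCompletion {k : Type*} [CommRing k] (f : A →+* k) (hf : J ≤ RingHom.ker f)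
    (σ : A →+* A) (hσ : J ≤ J.comap σ) (τ : k →+* k) (h : ∀ b, f (σ b) = τ (f b))
    (x : AdicCompletion J A) :
    residueMap J f hf (mapCompletion J σ hσ x) = τ (residueMap J f hf x) := by
  simp only [residueMap, RingHom.comp_apply, AlgHom.toRingHom_eq_coe, AlgHom.coe_toRingHom,
    evalₐ_mapCompletion]
  obtain ⟨b, hb⟩ := Ideal.Quotient.mk_surjective (AdicCompletion.evalₐ J 1 x)
  rw [← hb, Ideal.quotientMap_mk, Ideal.Quotient.lift_mk, Ideal.Quotient.lift_mk, h]

end FA.BDR
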