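import Fermat.Agent.FontaineWintenberger.Congr
import Mathlib.RingTheory.Perfection
import Mathlib.RingTheory.AdicCompletion.Basic

/-!
# The ring of integers of `ℂ_p`

The elements of absolute value at most one form a ring that is `p`-adically complete, with
divisibility read off the absolute value, and modulo `p` the `p`-th power is surjective.
-/

set_option autoImplicit false
set_option linter.unusedSectionVars false

noncomputable section

open Filter Ideal FA.TateSen FA.FontaineWintenberger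
open scoped Topology

namespace FA.BDR

variable (p : ℕ) [hp : Fact p.Prime]

local notation "C" => ℂ_[p]

/-- The ring of integers of `ℂ_p`. -/
abbrev OC : Type := PadicComplexInt p

variable {p}

theorem mem_OC {x : C} : x ∈ PadicComplexInt p ↔ ‖x‖ ≤ 1 := by
  rw [PadicComplex.norm_eq_norm]
  exact (Valued.toNormedField.norm_le_one_iff (L := ℂ_[p]) (Γ₀ := NNReal)).symm

theorem norm_OC_le (x : OC p) : ‖(x : C)‖ ≤ 1 := mem_OC.1 x.2

/-- An element of absolute value at most one. -/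
def mkOC (x : C) (h : ‖x‖ ≤ 1) : OC p := ⟨x, mem_OC.2 h⟩

theorem coe_mkOC (x : C) (h : ‖x‖ ≤ 1) : (mkOC x h : C) = x := rfl

theorem coe_natCast_OC (m : ℕ) : ((m : OC p) : C) = m := map_natCast (PadicComplexInt p).subtype m

theorem norm_p_pos_C : 0 < ‖(p : C)‖ := norm_pos_iff.2 (Nat.cast_ne_zero.2 hp.out.ne_zero)

theorem pow_dvd_OC {x : OC p} {n : ℕ} :
    (p : OC p) ^ n ∣ x ↔ ‖(x : C)‖ ≤ ‖(p : C)‖ ^ n := by
  refine ⟨?_, fun h => ?_⟩
  · rintro ⟨c, rfl⟩
    simp only [MulMemClass.coe_mul, SubmonoidClass.coe_pow, coe_natCast_OC, norm_mul, norm_pow]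
    exact mul_le_of_le_one_right (by positivity) (norm_OC_le c)
  · have h0 : (p : C) ^ n ≠ 0 := pow_ne_zero _ (Nat.cast_ne_zero.2 hp.out.ne_zero)
    refine ⟨mkOC ((x : C) / (p : C) ^ n) ?_, Subtype.ext ?_⟩
    · rw [norm_div, norm_pow, div_le_one (pow_pos norm_p_pos_C n)]
      exact h
    · simp only [MulMemClass.coe_mul, SubmonoidClass.coe_pow, coe_natCast_OC, coe_mkOC]
      rw [mul_div_cancel₀ _ h0]

theorem dvd_OC {x : OC p} : (p : OC p) ∣ x ↔ ‖(x : C)‖ ≤ ‖(p : C)‖ := by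
  simpa using pow_dvd_OC (x := x) (n := 1)

theorem not_isUnit_p : ¬ IsUnit (p : OC p) := fun h => by
  have h1 : (p : OC p) ∣ 1 := isUnit_iff_dvd_one.1 h
  rw [dvd_OC, OneMemClass.coe_one, norm_one] at h1
  exact absurd h1 (not_le.2 norm_p_C_lt)

instance : Fact (¬ IsUnit (p : OC p)) := ⟨not_isUnit_p⟩

/-- The congruence modulo the powers of `p`. -/
theorem smodEq_OC {x y : OC p} {n : ℕ} :
    x ≡ y [SMOD (span {(p : OC p)} ^ n • ⊤ : Submodule (OC p) (OC p))] ↔
      ‖(x : C) - y‖ ≤ ‖(p : C)‖ ^ n := by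
  rw [SModEq.sub_mem, smul_eq_mul, Ideal.mul_top, span_singleton_pow, mem_span_singleton,
    pow_dvd_OC]
  rfl

theorem eq_of_forall_le {x y : C} (h : ∀ n : ℕ, ‖x - y‖ ≤ ‖(p : C)‖ ^ n) : x = y := by
  rw [← sub_eq_zero, ← norm_le_zero_iff]
  exact ge_of_tendsto' (tendsto_pow_atTop_nhds_zero_of_lt_one (norm_nonneg _) norm_p_C_lt) h

instance : IsAdicComplete (span {(p : OC p)}) (OC p) where
  haus' x hx := Subtype.ext (eq_of_forall_le fun n => by
    simpa using smodEq_OC.1 (hx n))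
  prec' f hf := by
    have hd : ∀ {m n : ℕ}, m ≤ n → ‖(f m : C) - f n‖ ≤ ‖(p : C)‖ ^ m := fun hmn =>
      smodEq_OC.1 (hf hmn)
    have hc : CauchySeq fun n => (f n : C) := by
      refine Metric.cauchySeq_iff'.2 fun ε hε => ?_
      obtain ⟨N, hN⟩ := exists_pow_lt_of_lt_one hε (norm_p_C_lt (p := p))
      exact ⟨N, fun n hn => by
        rw [dist_eq_norm, norm_sub_rev]
        exact (hd hn).trans_lt hN⟩
    obtain ⟨x, hx⟩ := cauchySeq_tendsto_of_complete hc
    refine ⟨mkOC x (le_of_tendsto' hx.norm fun n => norm_OC_le _), fun n => smodEq_OC.2 ?_⟩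
    exact le_of_tendsto (hx.const_sub _).norm (eventually_atTop.2 ⟨n, fun m hm => hd hm⟩)

theorem mk_eq_mk_iff {x y : OC p} :
    Ideal.Quotient.mk (span {(p : OC p)}) x = Ideal.Quotient.mk (span {(p : OC p)}) y ↔
      ModEqP p (x : C) y := by
  rw [Ideal.Quotient.eq, mem_span_singleton, dvd_OC]
  rfl

/-- **The `p`-th power is surjective modulo `p`.** -/
theorem frobenius_surjective_OC : Function.Surjective (frobenius (ModP (OC p) p) p) := by
  intro a
  obtain ⟨a, rfl⟩ := Ideal.Quotient.mk_surjective a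
  obtain ⟨b, hb⟩ := IsAlgClosed.exists_pow_nat_eq (a : C) hp.out.pos
  have hb1 : ‖b‖ ≤ 1 := by
    refine (pow_le_one_iff_of_nonneg (norm_nonneg b) hp.out.ne_zero).1 ?_
    rw [← norm_pow, hb]
    exact norm_OC_le a
  refine ⟨Ideal.Quotient.mk _ (mkOC b hb1), ?_⟩
  rw [frobenius_def, ← map_pow]
  exact congrArg _ (Subtype.ext hb)

end FA.BDR
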