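import Fermat.Agent.BDR.Uniformizer
import Fermat.Agent.AxSenTate.Complete
import Fermat.Agent.TateSen.Main
import Mathlib.RingTheory.WittVector.Compare

/-!
# The graded pieces and the invariants of `B_dR`

The `i`-th graded piece is `ℂ_p(i)`; the elements fixed by the Galois group of `ℚ_p` are the
`p`-adic numbers, and an element fixed by an open subgroup lies in `B_dR⁺` and is determined by its
image under `θ`.
-/

set_option autoImplicit false
set_option linter.unusedSectionVars false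

noncomputable section

open Ideal FA.TateSen FA.FontaineWintenberger

namespace FA.BDR

variable {p : ℕ} [hp : Fact p.Prime]

local notation "C" => ℂ_[p]
local notation "G" => PadicAlgCl p ≃ₐ[ℚ_[p]] PadicAlgCl p
local notation "ι" => algebraMap (BPlus p) (BField p)

instance : IsDomain (BField p) := IsFractionRing.isDomain (BPlus p)

variable (p) in
/-- The `p`-adic integers in `A_inf`. -/
def zpHom : ℤ_[p] →+* AInf p :=
  (WittVector.map (ZMod.castHom dvd_rfl (OFlat p))).comp (WittVector.equiv p).symm.toRingHom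

theorem coe_theta_zpHom (x : ℤ_[p]) :
    ((theta p (zpHom p x) : OC p) : C) = algebraMap ℚ_[p] C (x : ℚ_[p]) := by
  rw [← sub_eq_zero, ← norm_le_zero_iff]
  refine ge_of_tendsto'
    (tendsto_pow_atTop_nhds_zero_of_lt_one (norm_nonneg (p : C)) norm_p_C_lt) fun n => ?_
  obtain ⟨c, hc⟩ := mem_span_singleton.1 (PadicInt.appr_spec n x)
  rw [sub_eq_iff_eq_add] at hc
  conv_lhs => rw [hc]
  simp only [map_add, map_mul, map_pow, map_natCast, AddMemClass.coe_add, MulMemClass.coe_mul,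
    SubmonoidClass.coe_pow, coe_natCast_OC, PadicInt.coe_add, PadicInt.coe_mul, PadicInt.coe_pow,
    PadicInt.coe_natCast]
  rw [add_sub_add_right_eq_sub, ← mul_sub, norm_mul, norm_pow]
  refine mul_le_of_le_one_right (by positivity) ?_
  rw [sub_eq_add_neg]
  refine (IsUltrametricDist.norm_add_le_max _ _).trans (max_le (norm_OC_le _) ?_)
  rw [norm_neg, norm_algebraMap']
  exact PadicInt.norm_le_one c

theorem ainfGal_zpHom (σ : G) (x : ℤ_[p]) : ainfGal σ (zpHom p x) = zpHom p x := by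
  refine WittVector.ext fun n => ?_
  rw [zpHom, RingHom.comp_apply, ainfGal, WittVector.map_coeff, WittVector.map_coeff]
  exact RingHom.congr_fun (RingHom.ext_zmod
    ((oflatGal σ).comp (ZMod.castHom dvd_rfl (OFlat p))) (ZMod.castHom dvd_rfl (OFlat p))) _

variable (p) in
/-- The `p`-adic integers in `B_dR⁺`. -/
def zpPlus : ℤ_[p] →+* BPlus p :=
  (toBPlus p).comp ((algebraMap (AInf p) (AInfP p)).comp (zpHom p))

theorem thetaPlus_zpPlus (x : ℤ_[p]) :
    thetaPlus p (zpPlus p x) = algebraMap ℚ_[p] C (x : ℚ_[p]) := by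
  rw [zpPlus, RingHom.comp_apply, RingHom.comp_apply, thetaPlus_toBPlus, thetaC_algebraMap,
    coe_theta_zpHom]

theorem isUnit_zpPlus (x : nonZeroDivisors ℤ_[p]) : IsUnit (zpPlus p x) := by
  rw [isUnit_iff_thetaPlus, thetaPlus_zpPlus, _root_.map_ne_zero, PadicInt.coe_ne_zero]
  exact nonZeroDivisors.coe_ne_zero x

variable (p) in
/-- The `p`-adic numbers in `B_dR⁺`. -/
def qpHom : ℚ_[p] →+* BPlus p :=
  IsLocalization.lift (M := nonZeroDivisors ℤ_[p]) (isUnit_zpPlus (p := p))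

theorem thetaPlus_qpHom (c : ℚ_[p]) : thetaPlus p (qpHom p c) = algebraMap ℚ_[p] C c := by
  have h : (thetaPlus p).comp (qpHom p) = algebraMap ℚ_[p] C :=
    IsLocalization.ringHom_ext (nonZeroDivisors ℤ_[p]) (RingHom.ext fun x => by
      rw [RingHom.comp_apply, RingHom.comp_apply, RingHom.comp_apply, qpHom,
        IsLocalization.lift_eq, thetaPlus_zpPlus, PadicInt.algebraMap_apply])
  exact RingHom.congr_fun h c

theorem smul_qpHom (σ : G) (c : ℚ_[p]) : σ • qpHom p c = qpHom p c := by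
  have h : (bplusGal σ).comp (qpHom p) = qpHom p :=
    IsLocalization.ringHom_ext (nonZeroDivisors ℤ_[p]) (RingHom.ext fun x => by
      rw [RingHom.comp_apply, RingHom.comp_apply, RingHom.comp_apply, qpHom,
        IsLocalization.lift_eq, zpPlus, RingHom.comp_apply, RingHom.comp_apply, bplusGal_toBPlus,
        ainfPGal_algebraMap, ainfGal_zpHom])
  exact RingHom.congr_fun h c

theorem exists_eq_unit_mul_piMu_pow {y : BPlus p} (hy : y ≠ 0) :
    ∃ (k : ℕ) (u : (BPlus p)ˣ), y = (u : BPlus p) * piMu p ^ k := by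
  obtain ⟨k, u, rfl⟩ := exists_eq_unit_mul_pi_pow hy
  obtain ⟨c, hc⟩ := exists_piMu_eq (p := p)
  refine ⟨k, u * c⁻¹ ^ k, ?_⟩
  rw [hc, Units.val_mul, Units.val_pow_eq_pow_val, mul_assoc (u : BPlus p),
    mul_pow (piBDR p), mul_left_comm ((↑c⁻¹ : BPlus p) ^ k), ← mul_pow, Units.inv_mul, one_pow,
    mul_one]

theorem exists_mul_pow_eq {x : BField p} (hx : x ≠ 0) :
    ∃ (k m : ℕ) (v : (BPlus p)ˣ), x * ι (piMu p ^ k) = ι ((v : BPlus p) * piMu p ^ m) := by
  obtain ⟨⟨y, d⟩, h⟩ := IsLocalization.surj (nonZeroDivisors (BPlus p)) x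
  obtain ⟨k, u, hu⟩ := exists_eq_unit_mul_piMu_pow (nonZeroDivisors.coe_ne_zero d)
  have hy : y ≠ 0 := fun h0 => by
    rw [h0, map_zero, mul_eq_zero] at h
    exact h.elim hx fun h1 =>
      nonZeroDivisors.coe_ne_zero d (IsFractionRing.injective (BPlus p) (BField p)
        (h1.trans (map_zero _).symm))
  obtain ⟨m, w, hw⟩ := exists_eq_unit_mul_piMu_pow hy
  refine ⟨k, m, u⁻¹ * w, ?_⟩
  rw [show piMu p ^ k = (↑u⁻¹ : BPlus p) * (d : BPlus p) by rw [hu, Units.inv_mul_cancel_left],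
    map_mul, mul_left_comm, h, ← map_mul, hw, Units.val_mul, mul_assoc]

/-- **The action on the graded pieces is the twist by the cyclotomic character.** -/
theorem exists_smul_mul_pow (σ : G) {x : BField p} {k m : ℕ} {b : BPlus p}
    (h : x * ι (piMu p ^ k) = ι (b * piMu p ^ m)) :
    ∃ y : BPlus p, (σ • x) * ι (piMu p ^ k) = ι (y * piMu p ^ m) ∧
      thetaPlus p y = twist p ((m : ℤ) - k) σ * gal σ (thetaPlus p b) := by
  obtain ⟨q, hq, hθ⟩ := exists_smul_piMu σ
  have hqu : IsUnit q := isUnit_iff_thetaPlus.2 (by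
    rw [hθ, _root_.map_ne_zero]; exact chi_ne_zero σ)
  refine ⟨(↑(hqu.unit⁻¹ ^ k) : BPlus p) * q ^ m * (σ • b), ?_, ?_⟩
  · have h1 := congrArg (σ • ·) h
    simp only [smul_mul', smul_algebraMap_bfield, smul_pow', hq, mul_pow] at h1
    refine ((hqu.pow k).map ι).mul_left_cancel ?_
    rw [← mul_left_comm, ← map_mul, h1, ← map_mul]
    congr 1
    rw [show q ^ k * ((↑(hqu.unit⁻¹ ^ k) : BPlus p) * q ^ m * (σ • b) * piMu p ^ m) =
      q ^ k * (↑(hqu.unit⁻¹ ^ k) : BPlus p) * ((σ • b) * (q ^ m * piMu p ^ m)) by ring,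
      Units.val_pow_eq_pow_val, ← mul_pow q (↑hqu.unit⁻¹ : BPlus p) k, IsUnit.mul_val_inv, one_pow,
      one_mul]
  · rw [map_mul, map_mul, map_pow, Units.val_pow_eq_pow_val, map_pow, map_units_inv,
      IsUnit.unit_spec, hθ, smul_bplus_def, thetaPlus_bplusGal, twist, zpow_sub₀ (chi_ne_zero σ),
      zpow_natCast, zpow_natCast, map_div₀, map_pow, map_pow, inv_pow]
    ring

/-- The kernel of the graded map. -/
theorem piMu_pow_succ_dvd_iff {m : ℕ} {b : BPlus p} :
    piMu p ^ (m + 1) ∣ b * piMu p ^ m ↔ thetaPlus p b = 0 := by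
  rw [pow_succ', mul_dvd_mul_iff_right (pow_ne_zero m piMu_ne_zero), piMu_dvd_iff]

/-- **A nonzero element fixed by an open subgroup is a unit of `B_dR⁺`.** -/
theorem exists_unit_of_fixed (U : Subgroup G) (hU : IsOpen (U : Set G)) {x : BField p}
    (hx0 : x ≠ 0) (hx : ∀ σ ∈ U, σ • x = x) :
    ∃ v : (BPlus p)ˣ, ι (v : BPlus p) = x := by
  obtain ⟨k, m, v, hv⟩ := exists_mul_pow_eq hx0
  have ha : thetaPlus p (v : BPlus p) ≠ 0 := isUnit_iff_thetaPlus.1 v.isUnit
  have hkm : k = m := by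
    by_contra hne
    refine ha (eq_zero_of_invariant_open (j := (m : ℤ) - k) (by omega) U hU fun σ hσ => ?_)
    obtain ⟨y, hy, hθ⟩ := exists_smul_mul_pow σ hv
    rw [hx σ hσ, hv] at hy
    rw [← hθ, mul_right_cancel₀ (pow_ne_zero m piMu_ne_zero)
      (IsFractionRing.injective (BPlus p) (BField p) hy)]
  subst hkm
  rw [map_mul] at hv
  exact ⟨v, (mul_right_cancel₀ ((map_ne_zero_iff ι (IsFractionRing.injective _ _)).2
    (pow_ne_zero k piMu_ne_zero)) hv).symm⟩

/-- **An element fixed by an open subgroup lies in `B_dR⁺`.** -/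
theorem exists_bPlus_of_fixed (U : Subgroup G) (hU : IsOpen (U : Set G)) {x : BField p}
    (hx : ∀ σ ∈ U, σ • x = x) : ∃ y : BPlus p, (∀ σ ∈ U, σ • y = y) ∧ ι y = x := by
  obtain ⟨y, rfl⟩ : ∃ y, ι y = x := by
    rcases eq_or_ne x 0 with rfl | hx0
    · exact ⟨0, map_zero _⟩
    · obtain ⟨v, hv⟩ := exists_unit_of_fixed U hU hx0 hx
      exact ⟨_, hv⟩
  exact ⟨y, fun σ hσ => IsFractionRing.injective (BPlus p) (BField p)
    ((smul_algebraMap_bfield σ y).symm.trans (hx σ hσ)), rfl⟩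

/-- **`θ` is injective on the elements fixed by an open subgroup.** -/
theorem eq_zero_of_fixed_of_thetaPlus (U : Subgroup G) (hU : IsOpen (U : Set G)) {y : BPlus p}
    (hy : ∀ σ ∈ U, σ • y = y) (hθ : thetaPlus p y = 0) : y = 0 := by
  by_contra h0
  obtain ⟨v, hv⟩ := exists_unit_of_fixed U hU
    ((map_ne_zero_iff ι (IsFractionRing.injective _ _)).2 h0)
    fun σ hσ => by rw [smul_algebraMap_bfield, hy σ hσ]
  exact isUnit_iff_thetaPlus.1 ((IsFractionRing.injective (BPlus p) (BField p) hv) ▸ v.isUnit) hθ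

/-- **The invariants of `B_dR⁺` are the `p`-adic numbers.** -/
theorem bPlus_invariants (y : BPlus p) :
    (∀ σ : G, σ • y = y) ↔ y ∈ Set.range (qpHom p) := by
  refine ⟨fun hy => ?_, fun ⟨c, hc⟩ σ => hc ▸ smul_qpHom σ c⟩
  obtain ⟨c, hc⟩ := (Fermat.Agent.AxSenTate.fixed_padicComplex_iff p (thetaPlus p y)).1 fun σ => by
    rw [← gal_apply, ← thetaPlus_bplusGal, ← smul_bplus_def, hy σ]
  refine ⟨c, (sub_eq_zero.1 ?_).symm⟩
  refine eq_zero_of_fixed_of_thetaPlus ⊤ isOpen_univ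
    (fun σ _ => by rw [smul_sub, hy σ, smul_qpHom]) ?_
  rw [map_sub, thetaPlus_qpHom, hc, sub_self]

/-- **The invariants of `B_dR` are the `p`-adic numbers.** -/
theorem bField_invariants (x : BField p) :
    (∀ σ : G, σ • x = x) ↔ x ∈ Set.range fun c => ι (qpHom p c) := by
  refine ⟨fun hx => ?_, fun ⟨c, hc⟩ σ => by rw [← hc, smul_algebraMap_bfield, smul_qpHom]⟩
  obtain ⟨y, hy, rfl⟩ := exists_bPlus_of_fixed ⊤ isOpen_univ fun σ _ => hx σ
  obtain ⟨c, rfl⟩ := (bPlus_invariants y).1 fun σ => hy σ (Subgroup.mem_top σ)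
  exact ⟨c, rfl⟩

end FA.BDR
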