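import Fermat.Agent.BDR.Tilt
import Mathlib.RingTheory.Perfectoid.BDeRham
import Mathlib.RingTheory.WittVector.Complete
import Mathlib.RingTheory.WittVector.Domain

/-!
# The kernel of Fontaine's map

`θ` is surjective and its kernel is generated by `[p♭] - p`, also after inverting `p`, where the
quotient is `ℂ_p`.
-/

set_option autoImplicit false
set_option linter.unusedSectionVars false

noncomputable section

open Ideal FA.TateSen FA.FontaineWintenberger WittVector

namespace FA.BDR

variable (p : ℕ) [hp : Fact p.Prime]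

local notation "C" => ℂ_[p]

/-- The Witt vectors of the perfection. -/
abbrev AInf : Type := WittVector p (OFlat p)

/-- Fontaine's map. -/
abbrev theta : AInf p →+* OC p := fontaineTheta (OC p) p

/-- The generator `[p♭] - p` of the kernel. -/
def xi : AInf p := teichmuller p (pFlat p) - (p : AInf p)

variable {p}

theorem theta_teichmuller (x : OFlat p) : theta p (teichmuller p x) = PreTilt.untilt x :=
  fontaineTheta_teichmuller x

theorem theta_xi : theta p (xi p) = 0 := by
  rw [xi, map_sub, theta_teichmuller, untilt_pFlat, map_natCast, sub_self]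

theorem constantCoeff_natCast_p : constantCoeff ((p : AInf p)) = (0 : OFlat p) := by
  rw [map_natCast, CharP.cast_eq_zero]

theorem constantCoeff_xi : constantCoeff (xi p) = pFlat p := by
  rw [xi, map_sub, constantCoeff_natCast_p, sub_zero]
  exact teichmuller_coeff_zero p (pFlat p)

theorem xi_ne_zero : xi p ≠ 0 := fun h =>
  pFlat_ne_zero (p := p) (by rw [← constantCoeff_xi, h, map_zero])

theorem surjective_theta : Function.Surjective (theta p) :=
  surjective_fontaineTheta frobenius_surjective_OC

theorem exists_kernel_step {x : AInf p} (hx : theta p x = 0) :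
    ∃ y x', x = xi p * y + (p : AInf p) * x' ∧ theta p x' = 0 := by
  have h0 : (p : OC p) ∣ PreTilt.untilt (x.coeff 0) := by
    rw [← mem_span_singleton, ← Ideal.Quotient.eq_zero_iff_mem, PreTilt.mk_untilt_eq_coeff_zero]
    have h := mk_fontaineTheta x
    rw [hx, map_zero] at h
    exact h.symm
  obtain ⟨z, hz⟩ := pFlat_dvd h0
  have hmem : x - xi p * teichmuller p z ∈ span {(p : AInf p)} := by
    rw [mem_span_p_iff_coeff_zero_eq_zero, ← constantCoeff_apply, map_sub, map_mul,
      constantCoeff_xi, constantCoeff_apply, constantCoeff_apply, teichmuller_coeff_zero, hz,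
      sub_self]
  obtain ⟨x', hx'⟩ := mem_span_singleton.1 hmem
  refine ⟨teichmuller p z, x', by rw [← hx']; ring, ?_⟩
  have h2 := congrArg (theta p) hx'
  rw [map_sub, map_mul, theta_xi, zero_mul, hx, sub_zero, map_mul, map_natCast] at h2
  exact (mul_eq_zero.1 h2.symm).resolve_left fun h =>
    Nat.cast_ne_zero.2 hp.out.ne_zero (by rw [← coe_natCast_OC, h]; rfl : (p : C) = 0)

/-- **The kernel of `θ` is generated by `[p♭] - p`.** -/
theorem ker_theta : RingHom.ker (theta p) = span {xi p} := by
  refine le_antisymm (fun x hx => ?_)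
    ((span_singleton_le_iff_mem _).2 (RingHom.mem_ker.2 theta_xi))
  rw [RingHom.mem_ker] at hx
  let next : {a : AInf p // theta p a = 0} → {a : AInf p // theta p a = 0} := fun a =>
    ⟨(exists_kernel_step a.2).choose_spec.choose,
      (exists_kernel_step a.2).choose_spec.choose_spec.2⟩
  set xs : ℕ → {a : AInf p // theta p a = 0} := fun n => next^[n] ⟨x, hx⟩
  set ys : ℕ → AInf p := fun n => (exists_kernel_step (xs n).2).choose
  have hrec : ∀ n, ((xs n : AInf p)) = xi p * ys n + (p : AInf p) * (xs (n + 1) : AInf p) := by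
    intro n
    have h := (exists_kernel_step (xs n).2).choose_spec.choose_spec.1
    rwa [show xs (n + 1) = next (xs n) from Function.iterate_succ_apply' next n _]
  set S : ℕ → AInf p := fun n => ∑ k ∈ Finset.range n, (p : AInf p) ^ k * ys k
  have hS : ∀ n, x = xi p * S n + (p : AInf p) ^ n * (xs n : AInf p) := by
    intro n
    induction n with
    | zero => simp [S, xs]
    | succ n ih =>
      rw [ih, hrec n]
      simp only [S, Finset.sum_range_succ]
      ring
  obtain ⟨L, hL⟩ := IsPrecomplete.prec
    (inferInstance : IsPrecomplete (span {(p : AInf p)}) (AInf p)) (f := S) fun {m n} hmn => by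
      rw [SModEq.sub_mem, smul_eq_mul, Ideal.mul_top, span_singleton_pow, mem_span_singleton]
      obtain ⟨d, rfl⟩ := Nat.exists_eq_add_of_le hmn
      refine ⟨-∑ k ∈ Finset.range d, (p : AInf p) ^ k * ys (m + k), ?_⟩
      simp only [S, Finset.sum_range_add, Finset.mul_sum, pow_add, mul_neg, ← mul_assoc]
      ring
  refine mem_span_singleton.2 ⟨L, ?_⟩
  rw [← sub_eq_zero]
  refine IsHausdorff.haus (inferInstance : IsHausdorff (span {(p : AInf p)}) (AInf p)) _
    fun n => ?_
  rw [SModEq.zero, smul_eq_mul, Ideal.mul_top, span_singleton_pow, mem_span_singleton]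
  have h := hL n
  rw [SModEq.sub_mem, smul_eq_mul, Ideal.mul_top, span_singleton_pow, mem_span_singleton] at h
  rw [show x - xi p * L = xi p * (S n - L) + (p : AInf p) ^ n * (xs n : AInf p) by
    rw [mul_sub, ← sub_eq_zero]; linear_combination hS n]
  exact dvd_add (h.mul_left _) (dvd_mul_right _ _)

variable (p) in
/-- `A_inf` with `p` inverted. -/
abbrev AInfP : Type := Localization.Away (p : AInf p)

variable (p) in
/-- The map to `ℂ_p` after inverting `p`. -/
def thetaC : AInfP p →+* C :=
  Localization.awayLift ((PadicComplexInt p).subtype.comp (theta p)) (p : AInf p) (by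
    rw [map_natCast]
    exact isUnit_iff_ne_zero.2 (Nat.cast_ne_zero.2 hp.out.ne_zero))

theorem thetaC_algebraMap (a : AInf p) :
    thetaC p (algebraMap _ _ a) = ((theta p a : OC p) : C) :=
  IsLocalization.lift_eq _ a

instance : CharZero (AInf p) :=
  ⟨fun m n h => by
    have := congrArg (fun a => ((theta p a : OC p) : C)) h
    simpa [coe_natCast_OC] using this⟩

theorem p_ne_zero_AInf : (p : AInf p) ≠ 0 := Nat.cast_ne_zero.2 hp.out.ne_zero

instance : IsDomain (AInfP p) :=
  IsLocalization.isDomain_localization (powers_le_nonZeroDivisors_of_noZeroDivisors p_ne_zero_AInf)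

theorem algebraMap_injective_AInf : Function.Injective (algebraMap (AInf p) (AInfP p)) :=
  IsLocalization.injective (AInfP p)
    (powers_le_nonZeroDivisors_of_noZeroDivisors (p_ne_zero_AInf (p := p)))

variable (p) in
/-- The generator of the kernel after inverting `p`. -/
def xiP : AInfP p := algebraMap _ _ (xi p)

theorem xiP_ne_zero : xiP p ≠ 0 := fun h =>
  xi_ne_zero (algebraMap_injective_AInf (h.trans (map_zero _).symm))

theorem exists_mul_pow (z : AInfP p) :
    ∃ (a : AInf p) (k : ℕ), z * algebraMap _ _ ((p : AInf p) ^ k) = algebraMap _ _ a := by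
  obtain ⟨⟨a, _, k, rfl⟩, h⟩ := IsLocalization.surj (Submonoid.powers (p : AInf p)) z
  exact ⟨a, k, h⟩

theorem ker_thetaC : RingHom.ker (thetaC p) = span {xiP p} := by
  refine le_antisymm (fun z hz => ?_) ((span_singleton_le_iff_mem _).2 (RingHom.mem_ker.2 (by
    rw [xiP, thetaC_algebraMap, theta_xi]; rfl)))
  obtain ⟨a, k, h⟩ := exists_mul_pow z
  have h1 := congrArg (thetaC p) h
  rw [map_mul, RingHom.mem_ker.1 hz, zero_mul, thetaC_algebraMap] at h1
  have ha : a ∈ RingHom.ker (theta p) := RingHom.mem_ker.2 (Subtype.ext h1.symm)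
  rw [ker_theta, mem_span_singleton] at ha
  obtain ⟨b, rfl⟩ := ha
  have hu : IsUnit (algebraMap (AInf p) (AInfP p) ((p : AInf p) ^ k)) :=
    IsLocalization.map_units (AInfP p) (⟨_, k, rfl⟩ : Submonoid.powers (p : AInf p))
  refine mem_span_singleton.2 ((hu.dvd_mul_right).1 ⟨algebraMap _ _ b, ?_⟩)
  rw [h, map_mul]
  rfl

theorem surjective_thetaC : Function.Surjective (thetaC p) := by
  intro c
  obtain ⟨k, hk⟩ := pow_unbounded_of_one_lt ‖c‖ (one_lt_inv_iff₀.2
    ⟨norm_p_pos_C (p := p), norm_p_C_lt⟩)
  have h1 : ‖c * (p : C) ^ k‖ ≤ 1 := by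
    rw [norm_mul, norm_pow]
    rw [inv_pow] at hk
    exact ((lt_div_iff₀ (pow_pos norm_p_pos_C k)).1 (by rwa [one_div])).le
  obtain ⟨a, ha⟩ := surjective_theta (mkOC _ h1)
  set u : Submonoid.powers (p : AInf p) := ⟨(p : AInf p) ^ k, k, rfl⟩
  refine ⟨IsLocalization.mk' (AInfP p) a u, ?_⟩
  have h2 := congrArg (thetaC p) (IsLocalization.mk'_spec (AInfP p) a u)
  rw [map_mul, thetaC_algebraMap, thetaC_algebraMap, ha, coe_mkOC, map_pow, map_natCast,
    SubmonoidClass.coe_pow, coe_natCast_OC] at h2
  exact mul_right_cancel₀ (pow_ne_zero k (Nat.cast_ne_zero.2 hp.out.ne_zero)) h2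

/-- **The kernel of Fontaine's map with `p` inverted.** -/
theorem ker_fontaineThetaInvertP :
    RingHom.ker (fontaineThetaInvertP (OC p) p) = span {xiP p} := by
  rw [← ker_thetaC]
  have hunit : IsUnit ((PadicComplexInt p).subtype (p : OC p)) := by
    rw [map_natCast]
    exact isUnit_iff_ne_zero.2 (Nat.cast_ne_zero.2 hp.out.ne_zero)
  set incl : Localization.Away (p : OC p) →+* C :=
    Localization.awayLift (PadicComplexInt p).subtype (p : OC p) hunit
  have hcomp : thetaC p = incl.comp (fontaineThetaInvertP (OC p) p) := by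
    refine IsLocalization.ringHom_ext (Submonoid.powers (p : AInf p)) (RingHom.ext fun a => ?_)
    rw [RingHom.comp_apply, RingHom.comp_apply, RingHom.comp_apply, thetaC_algebraMap,
      fontaineThetaInvertP, Localization.awayLift, IsLocalization.Away.lift_eq, RingHom.comp_apply]
    exact (IsLocalization.Away.lift_eq (S := Localization.Away (p : OC p)) (p : OC p) hunit _).symm
  have hinj : Function.Injective incl := by
    refine (IsLocalization.lift_injective_iff _).2 fun x y => ⟨fun h => ?_, fun h => ?_⟩
    · have hp0 : (p : OC p) ≠ 0 := fun h0 => Nat.cast_ne_zero.2 hp.out.ne_zero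
        (by rw [← coe_natCast_OC, h0]; rfl : (p : C) = 0)
      exact congrArg (PadicComplexInt p).subtype (IsLocalization.injective
        (Localization.Away (p : OC p)) (powers_le_nonZeroDivisors_of_noZeroDivisors hp0) h)
    · exact congrArg _ (Subtype.val_injective h)
  ext z
  rw [RingHom.mem_ker, RingHom.mem_ker, hcomp, RingHom.comp_apply]
  exact (map_eq_zero_iff incl hinj).symm

end FA.BDR
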