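import Fermat.Agent.BDR.Kernel
import Fermat.Agent.BDR.Completion

/-!
# `B_dR⁺` is a complete discrete valuation ring and `B_dR` its fraction field
-/

set_option autoImplicit false
set_option linter.unusedSectionVars false

noncomputable section

open Ideal FA.TateSen FA.FontaineWintenberger

namespace FA.BDR

variable (p : ℕ) [hp : Fact p.Prime]

local notation "C" => ℂ_[p]

/-- The ideal of the completion. -/
abbrev bdrIdeal : Ideal (AInfP p) := RingHom.ker (fontaineThetaInvertP (OC p) p)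

/-- `B_dR⁺`. -/
abbrev BPlus : Type := AdicCompletion (bdrIdeal p) (AInfP p)

theorem bPlus_eq : BPlus p = BDeRhamPlus (OC p) p := rfl

/-- The map from `A_inf[1/p]`. -/
abbrev toBPlus : AInfP p →+* BPlus p := toCompl (bdrIdeal p)

variable {p}

theorem bdrIdeal_eq : bdrIdeal p = span {xiP p} := ker_fontaineThetaInvertP

theorem bdrIdeal_eq_ker : bdrIdeal p = RingHom.ker (thetaC p) :=
  ker_fontaineThetaInvertP.trans ker_thetaC.symm

theorem isMaximal_bdrIdeal : (bdrIdeal p).IsMaximal :=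
  bdrIdeal_eq_ker (p := p) ▸ RingHom.ker_isMaximal_of_surjective (thetaC p) surjective_thetaC

instance : IsDomain (BPlus p) :=
  isDomain_completion _ _ bdrIdeal_eq xiP_ne_zero isMaximal_bdrIdeal

/-- **`B_dR⁺` is a discrete valuation ring.** -/
instance : IsDiscreteValuationRing (BPlus p) :=
  isDVR_completion _ _ bdrIdeal_eq xiP_ne_zero isMaximal_bdrIdeal

variable (p) in
/-- The uniformiser. -/
def piBDR : BPlus p := toBPlus p (xiP p)

variable (p) in
/-- `θ` on `B_dR⁺`. -/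
def thetaPlus : BPlus p →+* C := residueMap (bdrIdeal p) (thetaC p) bdrIdeal_eq_ker.le

theorem thetaPlus_toBPlus (b : AInfP p) : thetaPlus p (toBPlus p b) = thetaC p b :=
  residueMap_toCompl _ _ _ b

theorem thetaPlus_surjective : Function.Surjective (thetaPlus p) := fun c => by
  obtain ⟨b, hb⟩ := surjective_thetaC c
  exact ⟨toBPlus p b, by rw [thetaPlus_toBPlus, hb]⟩

theorem thetaPlus_piBDR : thetaPlus p (piBDR p) = 0 := by
  rw [piBDR, thetaPlus_toBPlus, ← RingHom.mem_ker, ker_thetaC]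
  exact mem_span_singleton_self _

theorem piBDR_dvd_iff {x : BPlus p} : piBDR p ∣ x ↔ thetaPlus p x = 0 := by
  refine ⟨fun ⟨c, hc⟩ => by rw [hc, map_mul, thetaPlus_piBDR, zero_mul], fun h => ?_⟩
  refine toCompl_dvd_of_eval_one _ _ bdrIdeal_eq xiP_ne_zero ?_
  obtain ⟨b, hb⟩ := Ideal.Quotient.mk_surjective (AdicCompletion.evalₐ (bdrIdeal p) 1 x)
  have h1 : thetaC p b = 0 := by
    rw [← h, thetaPlus, residueMap, RingHom.comp_apply, AlgHom.toRingHom_eq_coe,
      AlgHom.coe_toRingHom, ← hb, Ideal.Quotient.lift_mk]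
  rw [← hb, Ideal.Quotient.eq_zero_iff_mem, pow_one, bdrIdeal_eq_ker]
  exact h1

theorem irreducible_piBDR : Irreducible (piBDR p) :=
  irreducible_toCompl _ _ bdrIdeal_eq xiP_ne_zero isMaximal_bdrIdeal

theorem piBDR_ne_zero : piBDR p ≠ 0 := irreducible_piBDR.ne_zero

theorem ker_thetaPlus : RingHom.ker (thetaPlus p) = span {piBDR p} := by
  ext x
  rw [RingHom.mem_ker, mem_span_singleton, piBDR_dvd_iff]

theorem isUnit_iff_thetaPlus {x : BPlus p} : IsUnit x ↔ thetaPlus p x ≠ 0 := by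
  refine ⟨fun h => (h.map (thetaPlus p)).ne_zero, fun h => ?_⟩
  refine isUnit_of_eval_one _ _ bdrIdeal_eq isMaximal_bdrIdeal fun h1 => h ?_
  rw [thetaPlus, residueMap, RingHom.comp_apply, AlgHom.toRingHom_eq_coe, AlgHom.coe_toRingHom,
    h1, map_zero]

theorem exists_eq_unit_mul_pi_pow {x : BPlus p} (hx : x ≠ 0) :
    ∃ (k : ℕ) (u : (BPlus p)ˣ), x = (u : BPlus p) * piBDR p ^ k :=
  exists_eq_unit_mul_pow_completion _ _ bdrIdeal_eq xiP_ne_zero isMaximal_bdrIdeal hx

/-- **`B_dR⁺` is complete.** -/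
theorem exists_limit_bPlus (x : ℕ → BPlus p)
    (hx : ∀ m n, m ≤ n → piBDR p ^ m ∣ x m - x n) :
    ∃ y, ∀ n, piBDR p ^ n ∣ y - x n := by
  obtain ⟨y, hy⟩ := exists_limit_completion _ _ bdrIdeal_eq x hx
  refine ⟨y, fun n => (toCompl_pow_dvd_iff _ _ bdrIdeal_eq xiP_ne_zero).2 ?_⟩
  rw [map_sub, hy, sub_self]

variable (p) in
/-- The elements inverted in `B_dR`. -/
abbrev bdrSubmonoid : Submonoid (BPlus p) :=
  Submonoid.closure (AdicCompletion.of (bdrIdeal p) _ ''
    {a | bdrIdeal p = Ideal.span {a}})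

theorem of_eq_toBPlus (b : AInfP p) : AdicCompletion.of (bdrIdeal p) _ b = toBPlus p b :=
  AdicCompletion.ext_evalₐ fun n => by rw [evalₐ_toCompl]; exact AdicCompletion.evalₐ_of _ n b

theorem piBDR_mem : piBDR p ∈ bdrSubmonoid p :=
  Submonoid.subset_closure ⟨xiP p, bdrIdeal_eq, of_eq_toBPlus _⟩

theorem bdrSubmonoid_le : bdrSubmonoid p ≤ nonZeroDivisors (BPlus p) := by
  refine Submonoid.closure_le.2 ?_
  rintro _ ⟨a, ha, rfl⟩
  rw [Set.mem_ofPred_eq, bdrIdeal_eq, span_singleton_eq_span_singleton] at ha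
  obtain ⟨u, rfl⟩ := ha
  rw [SetLike.mem_coe, mem_nonZeroDivisors_iff_ne_zero, of_eq_toBPlus, map_mul]
  exact mul_ne_zero piBDR_ne_zero (u.isUnit.map (toBPlus p)).ne_zero

variable (p) in
/-- `B_dR`. -/
abbrev BField : Type := Localization (M := BPlus p) (bdrSubmonoid p)

theorem bField_eq : BField p = BDeRham (OC p) p := rfl

/-- **`B_dR` is the fraction field of `B_dR⁺`.** -/
instance : IsFractionRing (BPlus p) (BField p) :=
  IsLocalization.of_le_of_exists_dvd (bdrSubmonoid p) (nonZeroDivisors (BPlus p)) bdrSubmonoid_le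
    fun x hx => by
      obtain ⟨k, u, rfl⟩ := exists_eq_unit_mul_pi_pow (mem_nonZeroDivisors_iff_ne_zero.1 hx)
      exact ⟨piBDR p ^ k, pow_mem piBDR_mem k, (Units.mul_left_dvd).2 dvd_rfl⟩

theorem isField_bField : IsField (BField p) :=
  @Field.toIsField _ (IsFractionRing.toField (BPlus p))

end FA.BDR
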