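import Fermat.Agent.BDR.IntegerRing
import Mathlib.RingTheory.Perfectoid.Untilt
import Mathlib.NumberTheory.Basic

/-!
# The tilt of the ring of integers inside the tilt of `ℂ_p`

An element of `PreTilt` is the sequence of the untilts of its `p`-power roots: this embeds the
perfection of `O / p` as the integral elements of `Flat p`.
-/

set_option autoImplicit false
set_option linter.unusedSectionVars false

noncomputable section

open Filter Ideal FA.TateSen FA.FontaineWintenberger
open scoped Topology

namespace FA.BDR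

variable (p : ℕ) [hp : Fact p.Prime]

local notation "C" => ℂ_[p]

/-- The perfection of `O / p`. -/
abbrev OFlat : Type := PreTilt (OC p) p

variable {p}

/-- The `p`-power roots. -/
abbrev rootsFlat (n : ℕ) (x : OFlat p) : OFlat p := (frobeniusEquiv (OFlat p) p).symm^[n] x

/-- The terms in `ℂ_p` of an element of the perfection. -/
def termFlat (x : OFlat p) (n : ℕ) : C :=
  ((PreTilt.untilt (rootsFlat n x) : OC p) : C)

theorem termFlat_zero (x : OFlat p) : termFlat x 0 = ((PreTilt.untilt x : OC p) : C) := rfl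

theorem termFlat_pow (x : OFlat p) (n : ℕ) : termFlat x (n + 1) ^ p = termFlat x n := by
  rw [termFlat, termFlat, ← SubmonoidClass.coe_pow, ← map_pow]
  congr 3
  rw [rootsFlat, rootsFlat, Function.iterate_succ_apply', ← frobenius_def,
    frobenius_apply_frobeniusEquiv_symm]

theorem mk_untilt_roots (x : OFlat p) (n : ℕ) :
    Ideal.Quotient.mk (span {(p : OC p)}) (PreTilt.untilt (rootsFlat n x)) =
      PreTilt.coeff n x := by
  rw [PreTilt.mk_untilt_eq_coeff_zero, rootsFlat, PreTilt.coeff_def]
  exact (Perfection.coeff_iterate_symm_frobeniusEquiv x 0 n).trans (by rw [zero_add]; rfl)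

theorem termFlat_add (x y : OFlat p) (n : ℕ) :
    ModEqP p (termFlat (x + y) n) (termFlat x n + termFlat y n) := by
  have h : Ideal.Quotient.mk (span {(p : OC p)}) (PreTilt.untilt (rootsFlat n (x + y))) =
      Ideal.Quotient.mk (span {(p : OC p)})
        (PreTilt.untilt (rootsFlat n x) + PreTilt.untilt (rootsFlat n y)) := by
    rw [map_add, mk_untilt_roots, mk_untilt_roots, mk_untilt_roots, map_add]
  exact mk_eq_mk_iff.1 h

/-- The element of `Flat p` of an element of the perfection. -/
def toFlatFun (x : OFlat p) : Flat p := ⟨termFlat x, termFlat_pow x⟩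

theorem toFlatFun_seq (x : OFlat p) (n : ℕ) : (toFlatFun x).seq n = termFlat x n := rfl

theorem rootsFlat_mul (x y : OFlat p) (n : ℕ) :
    rootsFlat n (x * y) = rootsFlat n x * rootsFlat n y :=
  iterate_map_mul ((frobeniusEquiv (OFlat p) p).symm) n x y

theorem rootsFlat_one (n : ℕ) : rootsFlat n (1 : OFlat p) = 1 :=
  iterate_map_one ((frobeniusEquiv (OFlat p) p).symm) n

/-- **The perfection of `O / p` inside the tilt of `ℂ_p`.** -/
def toFlat : OFlat p →+* Flat p where
  toFun := toFlatFun
  map_one' := seq_injective (funext fun n => by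
    rw [toFlatFun_seq, termFlat, rootsFlat_one, map_one, OneMemClass.coe_one, seq_one])
  map_mul' x y := seq_injective (funext fun n => by
    rw [toFlatFun_seq, termFlat, rootsFlat_mul, map_mul, MulMemClass.coe_mul, seq_mul]
    rfl)
  map_zero' := by
    refine seq_eq_zero (n := 0) ?_
    have h : ∀ n, ModEqP p (termFlat (0 : OFlat p) n) 0 := fun n => by
      have h1 : Ideal.Quotient.mk (span {(p : OC p)})
          (PreTilt.untilt (rootsFlat n (0 : OFlat p))) =
            Ideal.Quotient.mk (span {(p : OC p)}) 0 := by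
        rw [mk_untilt_roots, map_zero, map_zero]
      exact mk_eq_mk_iff.1 h1
    have hx : ‖toFlatFun (0 : OFlat p)‖ ≤ 0 := ge_of_tendsto' tendsto_p_pow_pow fun n =>
      norm_le_of_seq_le (n := n) (by
        have h2 := h n
        rwa [ModEqP, sub_zero] at h2)
    exact norm_le_zero_iff.1 hx
  map_add' x y := flat_eq_of_near
    (Near.trans ⟨‖(p : C)‖, norm_nonneg _, norm_p_C_lt, Eventually.of_forall (termFlat_add x y)⟩
      (near_add (toFlatFun x) (toFlatFun y)).symm)

theorem toFlat_seq (x : OFlat p) (n : ℕ) :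
    (toFlat x).seq n = ((PreTilt.untilt (rootsFlat n x) : OC p) : C) := rfl

theorem untilt_eq_seq (x : OFlat p) : ((PreTilt.untilt x : OC p) : C) = (toFlat x).seq 0 := rfl

theorem norm_toFlat_le (x : OFlat p) : ‖toFlat x‖ ≤ 1 := norm_OC_le _

theorem toFlat_injective : Function.Injective (toFlat (p := p)) := fun x y h =>
  Perfection.ext fun n => by
    rw [← PreTilt.coeff_def, ← PreTilt.coeff_def, ← mk_untilt_roots, ← mk_untilt_roots]
    exact mk_eq_mk_iff.2 (by rw [← toFlat_seq, ← toFlat_seq, h]; exact modEqP_refl _)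

/-- The element of the perfection of an integral element of `Flat p`. -/
def ofFlat (y : Flat p) (hy : ‖y‖ ≤ 1) : OFlat p :=
  ⟨fun n => Ideal.Quotient.mk _ (mkOC (y.seq n) (norm_seq_le_one hy n)), fun n => by
    rw [← map_pow]
    exact congrArg _ (Subtype.ext (by rw [SubmonoidClass.coe_pow, coe_mkOC, seq_pow]; rfl))⟩

/-- An element is determined by the terms modulo `p`. -/
theorem toFlat_ofFlat (y : Flat p) (hy : ‖y‖ ≤ 1) : toFlat (ofFlat y hy) = y := by
  have h : ∀ n, ModEqP p ((toFlat (ofFlat y hy)).seq n) (y.seq n) := fun n => by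
    have h1 := mk_untilt_roots (ofFlat y hy) n
    exact mk_eq_mk_iff.1 (h1.trans (Perfection.coeff_mk _ _ n))
  exact flat_eq_of_near ⟨‖(p : C)‖, norm_nonneg _, norm_p_C_lt, Eventually.of_forall h⟩

theorem exists_toFlat_iff (y : Flat p) : (∃ x, toFlat x = y) ↔ ‖y‖ ≤ 1 :=
  ⟨fun ⟨x, hx⟩ => hx ▸ norm_toFlat_le x, fun hy => ⟨_, toFlat_ofFlat y hy⟩⟩

instance : IsDomain (OFlat p) := Function.Injective.isDomain (toFlat (p := p)) toFlat_injective

theorem dvd_of_norm_le {x y : OFlat p} (h : ‖toFlat x‖ ≤ ‖toFlat y‖) : y ∣ x := by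
  rcases eq_or_ne (toFlat y) 0 with h0 | h0
  · rw [h0, norm_zero, norm_le_zero_iff] at h
    rw [toFlat_injective (h.trans (map_zero toFlat).symm)]
    exact dvd_zero _
  have hq : ‖toFlat x / toFlat y‖ ≤ 1 := by
    rw [norm_div, div_le_one (norm_pos_iff.2 h0)]
    exact h
  exact ⟨ofFlat _ hq, toFlat_injective (by
    rw [map_mul, toFlat_ofFlat, mul_div_cancel₀ _ h0])⟩

theorem isUnit_of_norm_one {x : OFlat p} (h : ‖toFlat x‖ = 1) : IsUnit x :=
  isUnit_iff_dvd_one.2 (dvd_of_norm_le (by rw [map_one, norm_one, h]))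

variable (p) in
/-- A compatible system of roots of `p` in the perfection. -/
def pFlat : OFlat p :=
  ofFlat (exists_seq_zero_eq (p : C)).choose
    (by rw [norm_flat_def, (exists_seq_zero_eq (p : C)).choose_spec]; exact norm_p_C_lt.le)

theorem untilt_pFlat : PreTilt.untilt (pFlat p) = (p : OC p) := by
  refine Subtype.ext ?_
  rw [untilt_eq_seq, pFlat, toFlat_ofFlat, (exists_seq_zero_eq (p : C)).choose_spec,
    coe_natCast_OC]

theorem pFlat_ne_zero : pFlat p ≠ 0 := fun h => by
  have h1 := untilt_eq_seq (pFlat p)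
  rw [untilt_pFlat, coe_natCast_OC, h, map_zero, seq_zero] at h1
  exact Nat.cast_ne_zero.2 hp.out.ne_zero h1

/-- The multiples of `pFlat` are the elements with untilt divisible by `p`. -/
theorem pFlat_dvd {x : OFlat p} (h : (p : OC p) ∣ PreTilt.untilt x) : pFlat p ∣ x := by
  refine dvd_of_norm_le ?_
  rw [norm_flat_def, norm_flat_def, ← untilt_eq_seq, ← untilt_eq_seq, untilt_pFlat, coe_natCast_OC]
  exact dvd_OC.1 h

end FA.BDR
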