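import Fermat.Agent.BDR.Action
import Fermat.Agent.FontaineWintenberger.Laurent
import Fermat.Agent.TateSen.Traces

/-!
# The uniformiser `[ε] - 1` and the cyclotomic character

`[ε] - 1` generates the maximal ideal of `B_dR⁺`; an automorphism multiplies it by an element with
residue the cyclotomic character.
-/

set_option autoImplicit false
set_option linter.unusedSectionVars false

noncomputable section

open Ideal FA.TateSen FA.FontaineWintenberger WittVector Finset

namespace FA.BDR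

variable {p : ℕ} [hp : Fact p.Prime]

local notation "C" => ℂ_[p]
local notation "Ω" => PadicAlgCl p
local notation "G" => PadicAlgCl p ≃ₐ[ℚ_[p]] PadicAlgCl p

theorem coe_p_norm : ‖(p : C)‖ = ‖(p : Ω)‖ := by
  rw [← PadicComplex.coe_natCast, PadicComplex.norm_extends]

theorem norm_tee_pow : ‖tee p‖ ^ (p - 1) = ‖(p : C)‖ ^ p := by
  set z := zetaSeq p 2
  have hz : IsPrimitiveRoot z (p ^ (1 + 1)) := zetaSeq_primitive 2
  have htot := norm_sub_one_pow_totient hz
  rw [pow_one] at htot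
  have hp1 : (1 : ℕ) < p * (p - 1) := by
    have h2 := hp.out.two_le
    calc 1 < p := hp.out.one_lt
      _ ≤ p * (p - 1) := Nat.le_mul_of_pos_right p (by omega)
  have hbig : ‖(p : C)‖ < ‖((z - 1 : Ω) : C)‖ := by
    rw [PadicComplex.norm_extends, coe_p_norm, ← htot]
    calc ‖z - 1‖ ^ (p * (p - 1)) < ‖z - 1‖ ^ 1 :=
          pow_lt_pow_right_of_lt_one₀
            (norm_sub_one_pos (one_lt_pow₀ hp.out.one_lt (by omega)) hz)
            (norm_sub_one_lt norm_p_lt_one hz) hp1
      _ = ‖z - 1‖ := pow_one _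
  have h : ‖(tee p).seq 2‖ = ‖((z - 1 : Ω) : C)‖ := by
    have hd : ‖(tee p).seq 2 - ((z - 1 : Ω) : C)‖ ≤ ‖(p : C)‖ := tee_seq_modEqP 2
    conv_lhs => rw [show (tee p).seq 2 =
      ((tee p).seq 2 - ((z - 1 : Ω) : C)) + ((z - 1 : Ω) : C) by ring]
    rw [IsUltrametricDist.norm_add_eq_max_of_norm_ne_norm (hd.trans_lt hbig).ne,
      max_eq_right (hd.trans_lt hbig).le]
  rw [← norm_seq_pow (tee p) 2, h, PadicComplex.norm_extends, ← pow_mul,
    show p ^ 2 * (p - 1) = p * (p - 1) * p by ring, pow_mul, htot, coe_p_norm]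

variable (p) in
/-- `ε` in the perfection. -/
def eFlat : OFlat p := ofFlat (eps p) norm_eps.le

theorem norm_root_eps : ‖pthRoot' (eps p)‖ ≤ 1 := by
  refine (pow_le_one_iff_of_nonneg (norm_nonneg (pthRoot' (eps p))) hp.out.ne_zero).1 ?_
  rw [← norm_pow, pthRoot'_pow]
  exact norm_eps.le

variable (p) in
/-- The `p`-th root of `ε` in the perfection. -/
def eFlatRoot : OFlat p := ofFlat (pthRoot' (eps p)) norm_root_eps

theorem eFlatRoot_pow : eFlatRoot p ^ p = eFlat p :=
  toFlat_injective (by rw [map_pow, eFlatRoot, eFlat, toFlat_ofFlat, toFlat_ofFlat, pthRoot'_pow])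

theorem untilt_eFlat : PreTilt.untilt (eFlat p) = 1 := by
  refine Subtype.ext ?_
  rw [untilt_eq_seq, eFlat, toFlat_ofFlat, eps_seq, zetaSeq, OneMemClass.coe_one,
    PadicComplex.coe_eq, map_one]

theorem coe_untilt_eFlatRoot :
    ((PreTilt.untilt (eFlatRoot p) : OC p) : C) = (zetaSeq p 1 : C) := by
  rw [untilt_eq_seq, eFlatRoot, toFlat_ofFlat, pthRoot'_seq, eps_seq]

variable (p) in
/-- `[ε] - 1`. -/
def muInf : AInf p := teichmuller p (eFlat p) - 1

variable (p) in
/-- `[ε^(1/p)] - 1`. -/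
def muRoot : AInf p := teichmuller p (eFlatRoot p) - 1

theorem theta_muInf : theta p (muInf p) = 0 := by
  rw [muInf, map_sub, theta_teichmuller, untilt_eFlat, map_one, sub_self]

theorem theta_muRoot_ne_zero : theta p (muRoot p) ≠ 0 := fun h => by
  have h1 := congrArg (fun x : OC p => (x : C)) h
  simp only [muRoot, map_sub, theta_teichmuller, map_one, AddSubgroupClass.coe_sub,
    coe_untilt_eFlatRoot, OneMemClass.coe_one, ZeroMemClass.coe_zero, sub_eq_zero] at h1
  refine (zetaSeq_primitive (p := p) 1).ne_one (by rw [pow_one]; exact hp.out.one_lt) ?_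
  exact (algebraMap Ω C).injective (by rw [← PadicComplex.coe_eq, h1, map_one])

theorem sum_teichmuller_mul :
    (∑ i ∈ range p, teichmuller p (eFlatRoot p) ^ i) * muRoot p = muInf p := by
  rw [muRoot, geom_sum_mul, ← map_pow, eFlatRoot_pow, muInf]

theorem constantCoeff_sum :
    constantCoeff (∑ i ∈ range p, teichmuller p (eFlatRoot p) ^ i) =
      ∑ i ∈ range p, eFlatRoot p ^ i := by
  simp only [map_sum, map_pow]
  exact sum_congr rfl fun i _ => congrArg (· ^ i) (teichmuller_coeff_zero p (eFlatRoot p))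

theorem norm_sum_eFlatRoot :
    ‖toFlat (∑ i ∈ range p, eFlatRoot p ^ i)‖ = ‖(p : C)‖ := by
  simp only [map_sum, map_pow, eFlatRoot, toFlat_ofFlat]
  set b := pthRoot' (eps p)
  have hs : (∑ i ∈ range p, b ^ i) * (b - 1) = tee p := by
    rw [geom_sum_mul, pthRoot'_pow, tee]
  have hy : (b - 1) ^ p = tee p := by rw [sub_pow_char, pthRoot'_pow, one_pow, tee]
  have hy0 : ‖b - 1‖ ≠ 0 := fun h0 => tee_ne_zero (p := p) (by
    rw [← hy, norm_eq_zero.1 h0, zero_pow hp.out.ne_zero])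
  have hn1 := congrArg norm hs
  have hn2 := congrArg norm hy
  rw [norm_mul] at hn1
  rw [norm_pow] at hn2
  have hx : ‖∑ i ∈ range p, b ^ i‖ = ‖b - 1‖ ^ (p - 1) := by
    refine mul_right_cancel₀ hy0 ?_
    rw [hn1, ← pow_succ, Nat.sub_add_cancel hp.out.one_le, hn2]
  refine (pow_left_inj₀ (norm_nonneg _) (norm_nonneg _) hp.out.ne_zero).1 ?_
  rw [hx, ← pow_mul, mul_comm, pow_mul, hn2, norm_tee_pow]

theorem exists_muInf_eq : ∃ w : AInf p, muInf p = xi p * w ∧ theta p w ≠ 0 := by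
  set S := ∑ i ∈ range p, teichmuller p (eFlatRoot p) ^ i
  have hS0 : theta p S = 0 := by
    have h := congrArg (theta p) (sum_teichmuller_mul (p := p))
    rw [map_mul, theta_muInf] at h
    exact (mul_eq_zero.1 h).resolve_right theta_muRoot_ne_zero
  obtain ⟨v, hv⟩ : xi p ∣ S := by
    rw [← mem_span_singleton, ← ker_theta]
    exact RingHom.mem_ker.2 hS0
  refine ⟨v * muRoot p, by rw [← mul_assoc, ← hv, sum_teichmuller_mul], ?_⟩
  rw [map_mul]
  refine mul_ne_zero (fun h0 => ?_) theta_muRoot_ne_zero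
  have hv0 := congrArg (fun a => ‖toFlat (constantCoeff a)‖) hv
  simp only [map_mul, norm_mul, constantCoeff_xi, S, constantCoeff_sum, norm_sum_eFlatRoot,
    pFlat, toFlat_ofFlat] at hv0
  rw [norm_flat_def (exists_seq_zero_eq (p : C)).choose,
    (exists_seq_zero_eq (p : C)).choose_spec] at hv0
  have h1 : ‖toFlat (constantCoeff v)‖ = 1 :=
    (mul_right_eq_self₀.1 hv0.symm).resolve_right norm_p_pos_C.ne'
  have h2 := mk_fontaineTheta v
  rw [h0, map_zero, ← mk_untilt_roots, rootsFlat, Function.iterate_zero, id_eq,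
    eq_comm, Ideal.Quotient.eq_zero_iff_mem, mem_span_singleton, dvd_OC, untilt_eq_seq,
    ← norm_flat_def] at h2
  rw [constantCoeff_apply] at h1
  rw [h1] at h2
  exact absurd h2 (not_le.2 norm_p_C_lt)

variable (p) in
/-- The uniformiser `[ε] - 1`. -/
def piMu : BPlus p := toBPlus p (algebraMap _ _ (muInf p))

theorem exists_piMu_eq : ∃ c : (BPlus p)ˣ, piMu p = piBDR p * (c : BPlus p) := by
  obtain ⟨w, hw, hw0⟩ := exists_muInf_eq (p := p)
  have hu : IsUnit (toBPlus p (algebraMap _ _ w)) := by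
    rw [isUnit_iff_thetaPlus, thetaPlus_toBPlus, thetaC_algebraMap]
    exact fun h => hw0 (Subtype.ext h)
  exact ⟨hu.unit, by rw [piMu, hw, map_mul, map_mul, IsUnit.unit_spec]; rfl⟩

theorem piMu_ne_zero : piMu p ≠ 0 := by
  obtain ⟨c, hc⟩ := exists_piMu_eq (p := p)
  rw [hc]
  exact mul_ne_zero piBDR_ne_zero c.ne_zero

theorem thetaPlus_piMu : thetaPlus p (piMu p) = 0 := by
  rw [piMu, thetaPlus_toBPlus, thetaC_algebraMap, theta_muInf]
  rfl

theorem piMu_dvd_iff {x : BPlus p} : piMu p ∣ x ↔ thetaPlus p x = 0 := by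
  obtain ⟨c, hc⟩ := exists_piMu_eq (p := p)
  rw [hc, Units.mul_right_dvd, piBDR_dvd_iff]

theorem span_piMu : Ideal.span {piMu p} = RingHom.ker (thetaPlus p) := by
  ext x
  rw [RingHom.mem_ker, mem_span_singleton, piMu_dvd_iff]

/-- An element of the perfection with untilt one gives a multiple of the uniformiser. -/
theorem exists_mul_of_untilt_one {y : OFlat p} (hy : PreTilt.untilt y = 1) :
    ∃ w : AInf p, teichmuller p y - 1 = xi p * w := by
  have h : theta p (teichmuller p y - 1) = 0 := by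
    rw [map_sub, theta_teichmuller, hy, map_one, sub_self]
  rwa [← RingHom.mem_ker, ker_theta, mem_span_singleton] at h

/-- `σ ε` is a power of `ε` times an element with trivial untilt, raised to `p ^ n`. -/
theorem exists_flat_split (σ : G) (n : ℕ) :
    ∃ y : OFlat p, PreTilt.untilt y = 1 ∧
      oflatGal σ (eFlat p) = eFlat p ^ ((chi p σ : ℤ_[p]).toZModPow n).val * y ^ p ^ n := by
  set k := ((chi p σ : ℤ_[p]).toZModPow n).val
  have he0 : eps p ≠ 0 := fun h => zero_ne_one (α := ℝ) (by rw [← norm_eps (p := p), h, norm_zero])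
  set z := flatGal σ (eps p) / eps p ^ k
  have hz1 : ‖z‖ = 1 := by rw [norm_div, norm_pow, norm_flatGal, norm_eps, one_pow, div_one]
  have hzy : ‖pthRoot'^[n] z‖ ≤ 1 := by
    refine (pow_le_one_iff_of_nonneg (norm_nonneg (pthRoot'^[n] z))
      (pow_ne_zero n hp.out.ne_zero)).1 ?_
    rw [← norm_pow, pthRoot'_iter_pow, hz1]
  set y := ofFlat _ hzy
  have hy : PreTilt.untilt y = 1 := by
    refine Subtype.ext ?_
    rw [untilt_eq_seq, toFlat_ofFlat, pthRoot'_iter_seq, zero_add, OneMemClass.coe_one]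
    have h1 : z.seq n * (eps p ^ k).seq n = (flatGal σ (eps p)).seq n := by
      rw [← seq_mul, div_mul_cancel₀ _ (pow_ne_zero k he0)]
    have h2 : (flatGal σ (eps p)).seq n = (eps p ^ k).seq n := by
      rw [flatGal_seq, seq_pow_nat, eps_seq, gal_coe, PadicComplex.coe_eq, PadicComplex.coe_eq,
        ← map_pow, apply_root σ (zetaSeq_primitive n).pow_eq_one]
    refine mul_right_cancel₀ (b := (eps p ^ k).seq n) (fun h0 => pow_ne_zero k he0 (seq_eq_zero h0))
      ?_
    rw [h1, h2, one_mul]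
  have hsplit : oflatGal σ (eFlat p) = eFlat p ^ k * y ^ p ^ n := toFlat_injective (by
    rw [toFlat_oflatGal, map_mul, map_pow, map_pow, eFlat, toFlat_ofFlat, toFlat_ofFlat,
      pthRoot'_iter_pow, mul_div_cancel₀ _ (pow_ne_zero k he0)])
  exact ⟨y, hy, hsplit⟩

/-- The image of `[ε] - 1` at level `n`. -/
theorem exists_ainfGal_muInf (σ : G) (n : ℕ) :
    ∃ (K S w : AInf p), ainfGal σ (muInf p) = K * muInf p + S * (xi p * w) ∧
      theta p K = (((chi p σ : ℤ_[p]).toZModPow n).val : OC p) ∧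
      theta p S = (p : OC p) ^ n := by
  set k := ((chi p σ : ℤ_[p]).toZModPow n).val
  obtain ⟨y, hy, hsplit⟩ := exists_flat_split σ n
  obtain ⟨w, hw⟩ := exists_mul_of_untilt_one hy
  refine ⟨∑ i ∈ range k, teichmuller p (eFlat p) ^ i,
    teichmuller p (eFlat p) ^ k * ∑ i ∈ range (p ^ n), teichmuller p y ^ i, w, ?_, ?_, ?_⟩
  · rw [← hw, muInf, map_sub, map_one, ainfGal, WittVector.map_teichmuller, hsplit, map_mul,
      map_pow, map_pow, geom_sum_mul, mul_assoc, geom_sum_mul]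
    ring
  · simp only [map_sum, map_pow, theta_teichmuller, untilt_eFlat, one_pow, sum_const,
      Finset.card_range, nsmul_one, k]
  · simp only [map_mul, map_sum, map_pow, theta_teichmuller, untilt_eFlat, hy, one_pow, sum_const,
      Finset.card_range, nsmul_one, one_mul, Nat.cast_pow]

theorem eq_chi_of_approx {x : C} {σ : G} {M : ℝ}
    (h : ∀ n, ‖x - ((((chi p σ : ℤ_[p]).toZModPow n).val : ℕ) : C)‖ ≤ M * ‖(p : C)‖ ^ n) :
    x = algebraMap ℚ_[p] C ((chi p σ : ℤ_[p]) : ℚ_[p]) := by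
  rw [← sub_eq_zero, ← norm_le_zero_iff]
  have hlim : Filter.Tendsto (fun n : ℕ => max M 1 * ‖(p : C)‖ ^ n) Filter.atTop (nhds 0) := by
    simpa using (tendsto_pow_atTop_nhds_zero_of_lt_one (norm_nonneg _)
      (norm_p_C_lt (p := p))).const_mul (max M 1)
  refine ge_of_tendsto' hlim fun n => ?_
  have : NeZero (p ^ n) := ⟨pow_ne_zero n hp.out.ne_zero⟩
  set k := ((chi p σ : ℤ_[p]).toZModPow n).val
  have hk := (toZModPow_eq_iff (chi p σ : ℤ_[p]) k n).1 (ZMod.natCast_zmod_val _).symm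
  have hk' : ‖((k : ℕ) : C) - algebraMap ℚ_[p] C ((chi p σ : ℤ_[p]) : ℚ_[p])‖ ≤
      ‖(p : C)‖ ^ n := by
    rw [← map_natCast (algebraMap ℚ_[p] C) k, ← map_sub, norm_algebraMap', norm_sub_rev,
      ← map_natCast (algebraMap ℚ_[p] C) p, norm_algebraMap']
    exact hk
  rw [show x - algebraMap ℚ_[p] C ((chi p σ : ℤ_[p]) : ℚ_[p]) =
    (x - (k : C)) + ((k : C) - algebraMap ℚ_[p] C ((chi p σ : ℤ_[p]) : ℚ_[p])) by ring]
  exact norm_add_le_of_le
    ((h n).trans (mul_le_mul_of_nonneg_right (le_max_left _ _) (by positivity)))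
    (hk'.trans (le_mul_of_one_le_left (by positivity) (le_max_right _ _)))

/-- **The cocycle of the uniformiser is the cyclotomic character.** -/
theorem exists_smul_piMu (σ : G) : ∃ q : BPlus p, σ • piMu p = q * piMu p ∧
    thetaPlus p q = algebraMap ℚ_[p] C ((chi p σ : ℤ_[p]) : ℚ_[p]) := by
  obtain ⟨q, hq⟩ : piMu p ∣ σ • piMu p := piMu_dvd_iff.2 (by
    rw [smul_bplus_def, thetaPlus_bplusGal, thetaPlus_piMu, map_zero])
  refine ⟨q, by rw [hq, mul_comm], ?_⟩
  obtain ⟨c, hc⟩ := exists_piMu_eq (p := p)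
  refine eq_chi_of_approx (M := ‖thetaPlus p (↑c⁻¹ : BPlus p)‖) fun n => ?_
  obtain ⟨K, S, w, he, hK, hS⟩ := exists_ainfGal_muInf σ n
  have hpi : piBDR p = piMu p * (↑c⁻¹ : BPlus p) := by rw [hc, Units.mul_inv_cancel_right]
  have h1 : piMu p * q = piMu p * (toBPlus p (algebraMap _ _ K) +
      toBPlus p (algebraMap _ _ (S * w)) * (↑c⁻¹ : BPlus p)) := by
    rw [← hq, smul_bplus_def]
    conv_lhs => rw [piMu, bplusGal_toBPlus, ainfPGal_algebraMap, he]
    simp only [map_add, map_mul]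
    rw [show toBPlus p (algebraMap _ _ (xi p)) = piBDR p from rfl, hpi, piMu]
    ring
  rw [mul_left_cancel₀ piMu_ne_zero h1, map_add, map_mul, thetaPlus_toBPlus, thetaPlus_toBPlus,
    thetaC_algebraMap, thetaC_algebraMap, hK, map_mul, hS, coe_natCast_OC, add_sub_cancel_left,
    MulMemClass.coe_mul, SubmonoidClass.coe_pow, coe_natCast_OC, norm_mul, norm_mul, norm_pow,
    mul_comm ‖thetaPlus p (↑c⁻¹ : BPlus p)‖]
  exact mul_le_mul_of_nonneg_right (mul_le_of_le_one_right (by positivity) (norm_OC_le _))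
    (norm_nonneg _)

end FA.BDR
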